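import Fermat.Agent.S35.G.Transport

set_option autoImplicit false
set_option linter.unusedSectionVars false

/-!
# S35 / G / LocData : from the normal forms at `n` and `s⁻¹ n` to `S34.LocData` for `s y / y ^ Q`   (task G-LocData)

SKETCH of `locData_of_nf`.  `n' := pull n`.  `h2`: `y = ε' * h' ^ m`, `ε'` `LocUnit n'`, `h' ≡ a'_V` (`LocUnit n'`) on the branches `V` through `n'`.   `h1`: `y = ε * h ^ m`, `h ≡ a_V` on the branches through `n`.
 `u := s y / y ^ Q = (s ε' / ε ^ Q) * H ^ m`, `H := s h' / h ^ Q`.  `s ε' / ε ^ Q` is `LocUnit n` (`locUnit_map`).  For a branch `V` through `n` (equivalently through `n'`: `centered_pull`):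
 `H ≡ b_V := s a'_V / a_V ^ Q` mod `𝔪_V` (`redUnit_map`, `vc_div`, `vc_pow`, `locUnit_mem`), `b_V` `LocUnit n`.
 * exactly one branch `V` through `n`: final `h := H / b_V ≡ 1` on `V`; `u / h ^ m = (s ε' / ε ^ Q) * b_V ^ m` is `InLoc`.
 * both branches through `n`: then `pull n = n` (`FrobLike.pull_eq`); FORGET `h2` and use `h1` at `n' = n` as well (`h' = h`, `ε' = ε`, `a'_V = a_V`).  Then `b_V = s a_V / a_V ^ Q`, and
   `b_V - 1 = (s a_V - a_V ^ Q) / a_V ^ Q` is `InMax n` by `FrobLike.inMax_sub_pow`; so `b_0 - b_i` is `InMax n`.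
   `NodeSplit`: `b_0 - b_i = z_i + z_0`; `δ := b_i + z_i = b_0 - z_0`; `z_i` is `InMax` (`inMax_of_nonunits`), so `δ` is `LocUnit` (`locUnit_add_inMax`); `δ ≡ b_i` on `Vi`, `δ ≡ b_0` on `V0`; final `h := H / δ`.

So: `locData_core` is the common final step (given `H`, `δ`), `locData_of_nf` does the case distinction.
-/

noncomputable section

namespace Fermat.Agent.S35

open Polynomial IntermediateField Fermat.Agent.S18 Fermat.Agent.S34

variable {R K F : Type} [CommRing R] [IsDomain R] [IsDiscreteValuationRing R] [Field K] [CharZero K]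
  [Algebra R K] [IsFractionRing R K] [Field F] [Algebra K F]
  {ϖ : R} {x : F} {Vi V0 : ValuationSubring F}

/-- final step: `u = e * H ^ m`, `e` in the local ring, `H ≡ δ` on the branches through `n`, `δ` a local unit. -/
theorem locData_core (hϖ : Irreducible ϖ) (hB : Branches (K := K) ϖ x Vi V0) {t : F}
    (ht : t = x ∨ t = x⁻¹) {n : Ideal (CInt R K t)} [n.IsPrime] {m : ℕ} {u e H δ : F}
    (hH : H ≠ 0) (hu : u = e * H ^ m) (he : InLoc n e) (hδ : LocUnit n δ)
    (hi : Centered Vi n → H - δ ∈ Vi.nonunits) (h0 : Centered V0 n → H - δ ∈ V0.nonunits) :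
    LocData Vi V0 n m u := by
  have hδ0 := hδ.1
  have e1 : H / δ - 1 = δ⁻¹ * (H - δ) := by field_simp
  refine ⟨H / δ, div_ne_zero hH hδ0, ?_, fun hc => ?_, fun hc => ?_⟩
  · have e2 : u / (H / δ) ^ m = e * δ ^ m := by
      rw [hu, div_pow]; field_simp
    rw [e2]
    exact he.mul (hδ.2.1.pow m)
  · rw [e1]
    exact mul_mem_nonunits Vi (locUnit_mem (chart_le_i hϖ hB ht) hc hδ).2 (hi hc)
  · rw [e1]
    exact mul_mem_nonunits V0 (locUnit_mem (chart_le_0 hϖ hB ht) hc hδ).2 (h0 hc)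

/-- reduction of `H = s h' / h ^ Q` on a branch through `n`. -/
theorem locData_red {V : ValuationSubring F} {t : F} {n : Ideal (CInt R K t)} [n.IsPrime]
    (hV : ∀ y ∈ CInt R K t, y ∈ V) (hc : Centered V n) {g h A a : F} (hA : LocUnit n A)
    (ha : LocUnit n a) (h1 : g - A ∈ V.nonunits) (h2 : h - a ∈ V.nonunits) (Q : ℕ) :
    g / h ^ Q - A / a ^ Q ∈ V.nonunits := by
  have haQ := locUnit_pow ha Q
  obtain ⟨u1, u2⟩ := locUnit_mem hV hc haQ
  exact vc_div (locUnit_mem hV hc hA).1 haQ.1 u1 u2 h1 (vc_pow (locUnit_mem hV hc ha).1 h2 Q)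

/-- the algebraic identity. -/
theorem locData_identity (s : F ≃+* F) {y h h' : F} (hh : h ≠ 0) (hh' : h' ≠ 0) (m Q : ℕ) :
    s y / y ^ Q = s (y / h' ^ m) / (y / h ^ m) ^ Q * (s h' / h ^ Q) ^ m := by
  have e1 : s y = s (y / h' ^ m) * (s h') ^ m := by
    rw [← map_pow, ← map_mul, div_mul_cancel₀ _ (pow_ne_zero m hh')]
  have e2 : y ^ Q = (y / h ^ m) ^ Q * (h ^ Q) ^ m := by
    rw [← pow_mul, mul_comm Q m, pow_mul, ← mul_pow, div_mul_cancel₀ _ (pow_ne_zero m hh)]
  rw [div_pow (s h'), div_mul_div_comm, ← e1, ← e2]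

theorem locData_of_nf (hϖ : Irreducible ϖ) (hB : Branches (K := K) ϖ x Vi V0) {Q : ℕ} (hQ : Q ≠ 0)
    {s : F ≃+* F} (hs : FrobLike (K := K) ϖ x Vi V0 Q s) {t : F} (ht : t = x ∨ t = x⁻¹)
    {n : Ideal (CInt R K t)} (hn : IsClosedPt ϖ n) {m : ℕ} {y : F}
    (hsplit : Centered Vi n → Centered V0 n → NodeSplit Vi V0 n)
    (h1 : NF Vi V0 n m y) (h2 : NF Vi V0 (pull hs.chartAut ht n) m y) :
    LocData Vi V0 n m (s y / y ^ Q) := by
  have := hn.max.isPrime
  have hVi := chart_le_i hϖ hB ht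
  have hV0 := chart_le_0 hϖ hB ht
  obtain ⟨h, hh0, hε, hri, hr0⟩ := h1
  have hsne : ∀ {z : F}, z ≠ 0 → s z ≠ 0 := fun hz => (map_ne_zero_iff s s.injective).2 hz
  by_cases hci : Centered Vi n
  · by_cases hc0 : Centered V0 n
    · -- node
      have hpe := hs.pull_eq hQ ht hn hci hc0
      have hmap : ∀ {z : F}, LocUnit n z → LocUnit n (s z) := by
        intro z hz
        apply locUnit_map hs.chartAut ht
        rw [hpe]; exact hz
      obtain ⟨ai, hai, hhi⟩ := hri hci
      obtain ⟨a0, ha0, hh0'⟩ := hr0 hc0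
      have hbi : LocUnit n (s ai / ai ^ Q) := locUnit_div (hmap hai) (locUnit_pow hai Q)
      have hb0 : LocUnit n (s a0 / a0 ^ Q) := locUnit_div (hmap ha0) (locUnit_pow ha0 Q)
      have hHi : s h / h ^ Q - s ai / ai ^ Q ∈ Vi.nonunits :=
        locData_red hVi hci (hmap hai) hai
          (by rw [← map_sub]; exact (vc_map_nonunits hs.map_i).2 hhi) hhi Q
      have hH0 : s h / h ^ Q - s a0 / a0 ^ Q ∈ V0.nonunits :=
        locData_red hV0 hc0 (hmap ha0) ha0
          (by rw [← map_sub]; exact (vc_map_nonunits hs.map_0).2 hh0') hh0' Q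
      have hone : ∀ {a : F}, LocUnit n a → InMax n (s a / a ^ Q - 1) := by
        intro a ha
        have haQ := locUnit_pow ha Q
        have e : s a / a ^ Q - 1 = (s a - a ^ Q) * (a ^ Q)⁻¹ := by
          have := haQ.1
          field_simp
        rw [e]
        exact inMax_mul_right (hs.inMax_sub_pow hQ ht hn hci hc0 ha.2.1) haQ.2.2
      have hdiff : InMax n (s a0 / a0 ^ Q - s ai / ai ^ Q) := by
        have := inMax_sub (hone ha0) (hone hai)
        rwa [sub_sub_sub_cancel_right] at this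
      obtain ⟨zi, z0, hzi, hz0, hsum, hziV, hz0V⟩ := hsplit hci hc0 _ hdiff
      refine locData_core hϖ hB ht (H := s h / h ^ Q) (δ := s ai / ai ^ Q + zi)
        (e := s (y / h ^ m) / (y / h ^ m) ^ Q) (div_ne_zero (hsne hh0) (pow_ne_zero _ hh0))
        (locData_identity s hh0 hh0 m Q) (locUnit_div (hmap hε) (locUnit_pow hε Q)).2.1
        (locUnit_add_inMax hbi (inMax_of_nonunits hVi hci hzi hziV)) (fun _ => ?_) (fun _ => ?_)
      · rw [← sub_sub]
        exact sub_mem_nonunits Vi hHi hziV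
      · have e : s h / h ^ Q - (s ai / ai ^ Q + zi) = s h / h ^ Q - s a0 / a0 ^ Q + z0 := by
          have : s a0 / a0 ^ Q = s ai / ai ^ Q + zi + z0 := by
            rw [add_assoc, ← hsum]; ring
          rw [this]; ring
        rw [e]
        exact add_mem_nonunits V0 hH0 hz0V
    · -- only `Vi`
      obtain ⟨h', hh'0, hε', hri', -⟩ := h2
      obtain ⟨a, ha, hha⟩ := hri hci
      obtain ⟨A, hA, hhA⟩ := redUnit_map hs.chartAut ht hs.map_i
        (hri' ((centered_pull hs.chartAut ht hs.map_i).2 hci))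
      exact locData_core hϖ hB ht (H := s h' / h ^ Q) (δ := A / a ^ Q)
        (e := s (y / h' ^ m) / (y / h ^ m) ^ Q) (div_ne_zero (hsne hh'0) (pow_ne_zero _ hh0))
        (locData_identity s hh0 hh'0 m Q)
        (locUnit_div (locUnit_map hs.chartAut ht hε') (locUnit_pow hε Q)).2.1
        (locUnit_div hA (locUnit_pow ha Q)) (fun _ => locData_red hVi hci hA ha hhA hha Q)
        (fun hc => absurd hc hc0)
  · -- only `V0`
    have hc0 : Centered V0 n := (hB.centered_or hϖ ht hn).resolve_left hci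
    obtain ⟨h', hh'0, hε', -, hr0'⟩ := h2
    obtain ⟨a, ha, hha⟩ := hr0 hc0
    obtain ⟨A, hA, hhA⟩ := redUnit_map hs.chartAut ht hs.map_0
      (hr0' ((centered_pull hs.chartAut ht hs.map_0).2 hc0))
    exact locData_core hϖ hB ht (H := s h' / h ^ Q) (δ := A / a ^ Q)
      (e := s (y / h' ^ m) / (y / h ^ m) ^ Q) (div_ne_zero (hsne hh'0) (pow_ne_zero _ hh0))
      (locData_identity s hh0 hh'0 m Q)
      (locUnit_div (locUnit_map hs.chartAut ht hε') (locUnit_pow hε Q)).2.1
      (locUnit_div hA (locUnit_pow ha Q)) (fun hc => absurd hc hci)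
      (fun _ => locData_red hV0 hc0 hA ha hhA hha Q)

end Fermat.Agent.S35
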