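import Fermat.Agent.S35.G.NF
import Fermat.Agent.S35.G.LocData

set_option autoImplicit false

/-!
# S35 / G / Abs : the abstract theorem "`s = Q` on the toric part"
-/

noncomputable section

namespace Fermat.Agent.S35

open Polynomial IntermediateField Fermat.Agent.S18 Fermat.Agent.S34

variable {R K F : Type} [CommRing R] [IsDomain R] [IsDiscreteValuationRing R] [Field K] [CharZero K]
  [Algebra R K] [IsFractionRing R K] [Field F] [Algebra K F]
  {ϖ : R} {x : F} {Vi V0 : ValuationSubring F}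

/-- `s y / y ^ Q ≡ 1` on a branch preserved by `s`. -/
theorem frob_sub_one {V : ValuationSubring F} {s : F ≃+* F} (hV : ∀ z : F, s z ∈ V ↔ z ∈ V) {y : F}
    (hy : y - 1 ∈ V.nonunits) (Q : ℕ) : s y / y ^ Q - 1 ∈ V.nonunits := by
  have h1 : s y - 1 ∈ V.nonunits := by
    have := (vc_map_nonunits hV (z := y - 1)).2 hy
    rwa [map_sub, map_one] at this
  have h2 : y ^ Q - 1 ∈ V.nonunits := glueLoc_pow_sub_one hy Q
  have := vc_div (V := V) (one_mem V) one_ne_zero (one_mem V) (by rw [inv_one]; exact one_mem V) h1 h2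
  rwa [div_one] at this

theorem locData_frob (hϖ : Irreducible ϖ) (hB : Branches (K := K) ϖ x Vi V0) {Q : ℕ} (hQ : Q ≠ 0)
    {s : F ≃+* F} (hs : FrobLike (K := K) ϖ x Vi V0 Q s) {t : F} (ht : t = x ∨ t = x⁻¹) {m : ℕ}
    (hm : m ≠ 0) {y : F} (hyi : y - 1 ∈ Vi.nonunits) (hy0 : y - 1 ∈ V0.nonunits)
    (hloc : ∀ n : Ideal (CInt R K t), IsClosedPt ϖ n → LocHyp ϖ Vi V0 n m y)
    (n : Ideal (CInt R K t)) (hn : IsClosedPt ϖ n) : LocData Vi V0 n m (s y / y ^ Q) := by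
  have hn' := pull_isClosedPt hϖ hs.chartAut ht hn
  have h1 := nf_of_locHyp hϖ hB ht hn hm hyi hy0 (hloc n hn)
  have h2 := nf_of_locHyp hϖ hB ht hn' hm hyi hy0 (hloc _ hn')
  have := hn.max.isPrime
  by_cases hc : Centered Vi n ∧ Centered V0 n
  · rcases hloc n hn with h | ⟨h | h | h, -⟩
    · -- `y` is a local unit at the node `n = s⁻¹ n`
      have hu := locUnit_of_genUnit_one hϖ hB ht hn hyi hy0 h
      have hu' : LocUnit (pull hs.chartAut ht n) y := by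
        rw [hs.pull_eq hQ ht hn hc.1 hc.2]; exact hu
      have h3 := locUnit_div (locUnit_map hs.chartAut ht hu') (locUnit_pow hu Q)
      refine ⟨1, one_ne_zero, by simpa using h3.2.1, fun _ => ?_, fun _ => ?_⟩
      · rw [sub_self]; exact zero_mem_nonunits _
      · rw [sub_self]; exact zero_mem_nonunits _
    · exact absurd hc.2 h.2.1
    · exact absurd hc.1 h.2.1
    · exact locData_of_nf hϖ hB hQ hs ht hn (fun _ _ => h.2.2.1) h1 h2
  · exact locData_of_nf hϖ hB hQ hs ht hn (fun a b => absurd ⟨a, b⟩ hc) h1 h2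

/-- **the abstract theorem**: if `y ≡ 1` on both branches and `y` is locally (up to units of `Oloc[1/ϖ]`) a `p^k`-th power, then
`s y / y ^ Q` is a `p^k`-th power. -/
theorem frob_abs (hϖ : Irreducible ϖ) (hB : Branches (K := K) ϖ x Vi V0)
    {p : ℕ} (hp : p.Prime) (hpR : IsUnit (p : R))
    {𝕃 : Type} [Field 𝕃] [Algebra K 𝕃] [Algebra F 𝕃] [IsScalarTower K F 𝕃]
    (h𝕃 : ∀ z : 𝕃, IsAlgebraic K z → z ∈ (algebraMap K 𝕃).range) (k : ℕ)
    {ζ : K} (hζ : IsPrimitiveRoot ζ (p ^ k)) {Q : ℕ} (hQ : Q ≠ 0) {s : F ≃+* F}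
    (hs : FrobLike (K := K) ϖ x Vi V0 Q s)
    {y : F} (hyi : y - 1 ∈ Vi.nonunits) (hy0 : y - 1 ∈ V0.nonunits)
    (hfin : ∀ n : Ideal (CInt R K x), IsClosedPt ϖ n → LocHyp ϖ Vi V0 n (p ^ k) y)
    (hinf : ∀ n : Ideal (CInt R K x⁻¹), IsClosedPt ϖ n → LocHyp ϖ Vi V0 n (p ^ k) y)
    {Y : 𝕃} (hY : Y ^ (p ^ k) = algebraMap F 𝕃 (s y / y ^ Q)) :
    ∃ w : F, w ^ (p ^ k) = s y / y ^ Q := by
  have hm : p ^ k ≠ 0 := pow_ne_zero _ hp.ne_zero
  obtain ⟨w, hw, -, -⟩ := t1 hϖ hB hp hpR h𝕃 k ζ hζ (s y / y ^ Q)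
    (frob_sub_one hs.map_i hyi Q) (frob_sub_one hs.map_0 hy0 Q) Y hY
    (locData_frob hϖ hB hQ hs (Or.inl rfl) hm hyi hy0 hfin)
    (locData_frob hϖ hB hQ hs (Or.inr rfl) hm hyi hy0 hinf)
  exact ⟨w, hw⟩

end Fermat.Agent.S35
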