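import Fermat.Agent.S35.G.DVR
import Fermat.Agent.S34.DAbs

set_option autoImplicit false
set_option linter.unusedSectionVars false

/-!
# S35 / G / PtStr : from the structure theorem of the special fibre (`S34.SSAt`, refined at the double points) to `PtStr`   (task G-PtStr)

SKETCHES.
* `exists_inMax_unit`: `IsRat` for `c = t`: `t - r ∈ n`.  `(t - r)⁻¹` is `InO K ϖ t` (witness `s = X - C r`, not divisible by `C ϖ`: leading coefficient `1`); `Branches.inO_iff'`.  `t - r ≠ 0` by transcendence (`hB.trans'`).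
* `branchDVR_one`: `V` centred, `V'` not.  `e`: `¬ Centered V' n` gives `d ∈ C ∩ 𝔪_{V'}`, `d ∉ n`; `d ∉ 𝔪_V` (centred), so `d` is a unit of `V`.
   `SmAt`: `π := S`, `hgen`: `z = ϖ a + S b ≡ S b` (`ϖ a ∈ 𝔪_V`, `a ∈ V` by `Centered.mem_of_inLoc`).  `S ∉ 𝔪_V`: otherwise every `InMax` element is in `𝔪_V`, contradicting `exists_inMax_unit`.
   `NdAt`: `ϖ₀` is not a unit of `R` (else `S` would be a `LocUnit`), so `S * T = rE ϖ₀ ∈ 𝔪_V`, so `S ∈ 𝔪_V` or `T ∈ 𝔪_V` (`S, T ∈ V`; valuation).  If `S ∈ 𝔪_V`: `π := T`, `z ≡ T c`; `T ∉ 𝔪_V` as before.  Symmetric.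
   Then `branchDVR_of_gen`.
* `nodeStr_of_ndAtS`: `NodeSplit`: `z = (ϖ a + S b) + T c`.   `GenUnit S`: `ϖ₀ = ϖ ^ k * unit` (DVR: `IsDiscreteValuationRing.eq_unit_mul_pow_irreducible`), `ϖ ^ k * S⁻¹ = unit⁻¹ * T`.
   `BranchDVR V0 n S`: `branchDVR_of_gen` with `V = V0`, `V' = Vi`, `π = e = S`, `hgen`: `z ≡ S b` mod `𝔪_V0`.   `BranchDVR Vi n T`: `π = e = T`.
-/

noncomputable section

namespace Fermat.Agent.S35

open Polynomial IntermediateField Fermat.Agent.S18 Fermat.Agent.S34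

section defs
variable {R K F : Type} [CommRing R] [Field K] [Algebra R K] [Field F] [Algebra K F]

/-- node with the information which of `S`, `T` vanishes on which branch. -/
def NdAtS (ϖ : R) (Vi V0 : ValuationSubring F) {t : F} (n : Ideal (CInt R K t)) : Prop :=
  ∃ (S T : F) (ϖ₀ : R), ϖ₀ ≠ 0 ∧ InMax n S ∧ InMax n T ∧ S * T = rE R K F ϖ₀ ∧
    S ∈ Vi.nonunits ∧ T ∈ V0.nonunits ∧ S⁻¹ ∈ V0 ∧ T⁻¹ ∈ Vi ∧
    ∀ z : F, InMax n z →
      ∃ a b c : F, InLoc n a ∧ InLoc n b ∧ InLoc n c ∧ z = rE R K F ϖ * a + S * b + T * c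

/-- the structure theorem of the special fibre, refined at the double points (WANTED from chapter `S34/SS`). -/
def SSAtS (ϖ : R) (Vi V0 : ValuationSubring F) (t : F) : Prop :=
  ∀ n : Ideal (CInt R K t), IsClosedPt ϖ n → IsRat n →
    (SmAt ϖ n ∨ NdAt ϖ n) ∧ (Centered Vi n → Centered V0 n → NdAtS ϖ Vi V0 n)

end defs

variable {R K F : Type} [CommRing R] [IsDomain R] [IsDiscreteValuationRing R] [Field K] [CharZero K]
  [Algebra R K] [IsFractionRing R K] [Field F] [Algebra K F]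
  {ϖ : R} {x : F} {Vi V0 : ValuationSubring F}

theorem exists_inMax_unit (hϖ : Irreducible ϖ) (hB : Branches (K := K) ϖ x Vi V0) {t : F}
    (ht : t = x ∨ t = x⁻¹) {n : Ideal (CInt R K t)} (hn : IsClosedPt ϖ n) (hrat : IsRat n) :
    ∃ c : F, InMax n c ∧ c ≠ 0 ∧ c⁻¹ ∈ Vi ∧ c⁻¹ ∈ V0 := by
  have := hn.max.isPrime
  obtain ⟨r, hr⟩ := hrat ⟨t, self_mem_CInt t⟩
  have hc0 : t - rE R K F r ≠ 0 := by
    intro h
    apply hB.trans' ht
    rw [sub_eq_zero.1 h]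
    exact isAlgebraic_algebraMap _
  have hO : InO K ϖ t (t - rE R K F r)⁻¹ := by
    refine ⟨X - C r, ?_, ?_⟩
    · intro hd
      have h1 := (Polynomial.C_dvd_iff_dvd_coeff _ _).1 hd 1
      rw [Polynomial.coeff_sub, Polynomial.coeff_X_one, Polynomial.coeff_C_succ, sub_zero] at h1
      exact hϖ.not_isUnit (isUnit_of_dvd_one h1)
    · rw [map_sub, evR_X, evR_C, mul_inv_cancel₀ hc0]
      exact (CInt R K t).one_mem
  obtain ⟨h1, h2⟩ := (hB.inO_iff' hϖ ht _).1 hO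
  exact ⟨t - rE R K F r, ⟨1, loc_one_notMem n, _, hr, by simp⟩, hc0, h1, h2⟩

/-- a generator of the maximal ideal modulo `𝔪_V` is a unit of `V`. -/
theorem ptStr_unit_of_gen {V : ValuationSubring F} {t : F} {n : Ideal (CInt R K t)} [n.IsPrime]
    (hV : ∀ y ∈ CInt R K t, y ∈ V) (hc : Centered V n) {c₀ : F} (hc₀ : InMax n c₀)
    (hc₀0 : c₀ ≠ 0) (hc₀V : c₀⁻¹ ∈ V) {π : F} (hπ : InMax n π)
    (hgen : ∀ z : F, InMax n z → ∃ a : F, InLoc n a ∧ z - π * a ∈ V.nonunits) :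
    π ≠ 0 ∧ π⁻¹ ∈ V := by
  have hπV : π ∈ V := hc.mem_of_inLoc hV hπ.inLoc
  have hn : π ∉ V.nonunits := by
    intro h
    obtain ⟨a, ha, h1⟩ := hgen c₀ hc₀
    have := add_mem_nonunits V h1 (mul_mem_nonunits' V h (hc.mem_of_inLoc hV ha))
    rw [sub_add_cancel] at this
    exact vc_not_nonunits hc₀0 hc₀V this
  exact ⟨fun h => hn (h ▸ zero_mem_nonunits V), inv_mem_of_notMem_nonunits V hπV hn⟩

/-- the constant of a node is not a unit. -/
theorem ptStr_dvd (hϖ : Irreducible ϖ) {t : F} {n : Ideal (CInt R K t)} [n.IsPrime] {ϖ₀ : R}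
    (h : InMax n (rE R K F ϖ₀)) : ϖ ∣ ϖ₀ := by
  apply lf_dvd_of_not_isUnit hϖ
  intro hu
  obtain ⟨u, hu⟩ := hu.exists_right_inv
  have h1 := inMax_mul_right h (InLoc.of_mem n (rE_mem_CInt t u))
  rw [← map_mul, hu, map_one] at h1
  exact not_inMax_one h1

theorem branchDVR_one (hϖ : Irreducible ϖ) (hB : Branches (K := K) ϖ x Vi V0) {t : F}
    (ht : t = x ∨ t = x⁻¹) {n : Ideal (CInt R K t)} (hn : IsClosedPt ϖ n) (hrat : IsRat n)
    {V V' : ValuationSubring F} (hVV' : (V = Vi ∧ V' = V0) ∨ (V = V0 ∧ V' = Vi))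
    (hc : Centered V n) (hc' : ¬ Centered V' n) (h : SmAt ϖ n ∨ NdAt ϖ n) :
    ∃ π : F, BranchDVR V n π := by
  have := hn.max.isPrime
  obtain ⟨-, -, -, hCV, hCV', hϖV⟩ := frac_aux hϖ hB ht hVV'
  unfold Centered at hc'
  push Not at hc'
  obtain ⟨d, hdV', hdn⟩ := hc'
  have hdu := locUnit_of_notMem hdn
  obtain ⟨c₀, hc₀, hc₀0, hc₀i, hc₀0'⟩ := exists_inMax_unit hϖ hB ht hn hrat
  have hc₀V : c₀⁻¹ ∈ V := by
    rcases hVV' with ⟨rfl, rfl⟩ | ⟨rfl, rfl⟩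
    · exact hc₀i
    · exact hc₀0'
  have fin : ∀ π : F, InMax n π →
      (∀ z : F, InMax n z → ∃ a : F, InLoc n a ∧ z - π * a ∈ V.nonunits) →
      ∃ π : F, BranchDVR V n π := by
    intro π hπ hgen
    obtain ⟨h1, h2⟩ := ptStr_unit_of_gen hCV hc hc₀ hc₀0 hc₀V hπ hgen
    exact ⟨π, branchDVR_of_gen hϖ hB ht hn hVV' hc hπ h1 h2 (InLoc.of_mem n d.2) hdV' hdu.1
      (locUnit_mem hCV hc hdu).2 hgen⟩
  have hmem : ∀ {a : F}, InLoc n a → a ∈ V := fun ha => hc.mem_of_inLoc hCV ha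
  rcases h with ⟨S, hSM, hS⟩ | ⟨S, T, ϖ₀, -, hSM, hTM, hST, hgen3⟩
  · refine fin S hSM fun z hz => ?_
    obtain ⟨a, b, ha, hb, rfl⟩ := hS z hz
    refine ⟨b, hb, ?_⟩
    rw [add_sub_cancel_right]
    exact mul_mem_nonunits' V hϖV (hmem ha)
  · have hSTm : S * T ∈ V.nonunits := by
      obtain ⟨r, rfl⟩ := ptStr_dvd hϖ (hST ▸ InMax.mul_left hSM.inLoc hTM)
      rw [hST, map_mul]
      exact mul_mem_nonunits' V hϖV (hCV _ (rE_mem_CInt t r))
    by_cases hSV : S ∈ V.nonunits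
    · refine fin T hTM fun z hz => ?_
      obtain ⟨a, b, c, ha, hb, hc', rfl⟩ := hgen3 z hz
      refine ⟨c, hc', ?_⟩
      rw [add_sub_cancel_right]
      exact add_mem_nonunits V (mul_mem_nonunits' V hϖV (hmem ha))
        (mul_mem_nonunits' V hSV (hmem hb))
    · have hTV : T ∈ V.nonunits := by
        have h1 := inv_mem_of_notMem_nonunits V (hmem hSM.inLoc) hSV
        have hS0 : S ≠ 0 := fun h0 => hSV (h0 ▸ zero_mem_nonunits V)
        have := mul_mem_nonunits V h1 hSTm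
        rwa [← mul_assoc, inv_mul_cancel₀ hS0, one_mul] at this
      refine fin S hSM fun z hz => ?_
      obtain ⟨a, b, c, ha, hb, hc', rfl⟩ := hgen3 z hz
      refine ⟨b, hb, ?_⟩
      have e : rE R K F ϖ * a + S * b + T * c - S * b = rE R K F ϖ * a + T * c := by ring
      rw [e]
      exact add_mem_nonunits V (mul_mem_nonunits' V hϖV (hmem ha))
        (mul_mem_nonunits' V hTV (hmem hc'))

theorem nodeStr_of_ndAtS (hϖ : Irreducible ϖ) (hB : Branches (K := K) ϖ x Vi V0) {t : F}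
    (ht : t = x ∨ t = x⁻¹) {n : Ideal (CInt R K t)} (hn : IsClosedPt ϖ n)
    (hci : Centered Vi n) (hc0 : Centered V0 n) (h : NdAtS ϖ Vi V0 n) : NodeStr ϖ Vi V0 n := by
  have := hn.max.isPrime
  have hVi := chart_le_i hϖ hB ht
  have hV0 := chart_le_0 hϖ hB ht
  obtain ⟨S, T, ϖ₀, hϖ₀, hSM, hTM, hST, hSi, hT0, hS0, hTi, hgen⟩ := h
  have hP := unit_unif_ne_zero (K := K) (F := F) hϖ
  have hϖ₀F : rE R K F ϖ₀ ≠ 0 := fun h0 =>
    hϖ₀ (rE_injective (K := K) (E := F) (by rw [h0, map_zero]))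
  have hSne : S ≠ 0 := fun h0 => hϖ₀F (by rw [← hST, h0, zero_mul])
  have hTne : T ≠ 0 := fun h0 => hϖ₀F (by rw [← hST, h0, mul_zero])
  have hmi : ∀ {a : F}, InLoc n a → a ∈ Vi := fun ha => hci.mem_of_inLoc hVi ha
  have hm0 : ∀ {a : F}, InLoc n a → a ∈ V0 := fun ha => hc0.mem_of_inLoc hV0 ha
  refine ⟨fun z hz => ?_, S, T, ?_, ?_, ?_⟩
  · obtain ⟨a, b, c, ha, hb, hc, rfl⟩ := hgen z hz
    exact ⟨rE R K F ϖ * a + S * b, T * c,
      ((InLoc.of_mem n (rE_mem_CInt t ϖ)).mul ha).add (hSM.inLoc.mul hb), hTM.inLoc.mul hc, rfl,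
      add_mem_nonunits Vi (mul_mem_nonunits' Vi hB.mem_i (hmi ha))
        (mul_mem_nonunits' Vi hSi (hmi hb)), mul_mem_nonunits' V0 hT0 (hm0 hc)⟩
  · -- `GenUnit S`
    obtain ⟨k, u, hu⟩ := IsDiscreteValuationRing.eq_unit_mul_pow_irreducible hϖ₀ hϖ
    refine ⟨hSne, k, (unit_inLoc_unif_pow ϖ k).mul hSM.inLoc, ?_⟩
    have e : rE R K F ϖ ^ k * S⁻¹ = rE R K F ((u⁻¹ : Rˣ) : R) * T := by
      have h1 : rE R K F ((u⁻¹ : Rˣ) : R) * rE R K F (u : R) = 1 := by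
        rw [← map_mul, Units.inv_mul, map_one]
      have h2 : S * T = rE R K F (u : R) * rE R K F ϖ ^ k := by
        rw [hST, hu, map_mul, map_pow]
      have h3 : T = S⁻¹ * (rE R K F (u : R) * rE R K F ϖ ^ k) := by
        rw [← h2, ← mul_assoc, inv_mul_cancel₀ hSne, one_mul]
      rw [h3]
      calc rE R K F ϖ ^ k * S⁻¹ = 1 * (rE R K F ϖ ^ k * S⁻¹) := (one_mul _).symm
        _ = _ := by rw [← h1]; ring
    rw [e]
    exact (InLoc.of_mem n (rE_mem_CInt t _)).mul hTM.inLoc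
  · refine branchDVR_of_gen hϖ hB ht hn (Or.inr ⟨rfl, rfl⟩) hc0 hSM hSne hS0 hSM.inLoc hSi hSne hS0
      fun z hz => ?_
    obtain ⟨a, b, c, ha, hb, hc, rfl⟩ := hgen z hz
    refine ⟨b, hb, ?_⟩
    have e : rE R K F ϖ * a + S * b + T * c - S * b = rE R K F ϖ * a + T * c := by ring
    rw [e]
    exact add_mem_nonunits V0 (mul_mem_nonunits' V0 hB.mem_0 (hm0 ha))
      (mul_mem_nonunits' V0 hT0 (hm0 hc))
  · refine branchDVR_of_gen hϖ hB ht hn (Or.inl ⟨rfl, rfl⟩) hci hTM hTne hTi hTM.inLoc hT0 hTne hTi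
      fun z hz => ?_
    obtain ⟨a, b, c, ha, hb, hc, rfl⟩ := hgen z hz
    refine ⟨c, hc, ?_⟩
    rw [add_sub_cancel_right]
    exact add_mem_nonunits Vi (mul_mem_nonunits' Vi hB.mem_i (hmi ha))
      (mul_mem_nonunits' Vi hSi (hmi hb))

theorem ptStr_of_ssAtS (hϖ : Irreducible ϖ) (hB : Branches (K := K) ϖ x Vi V0) {t : F}
    (ht : t = x ∨ t = x⁻¹) (hSS : SSAtS (K := K) ϖ Vi V0 t) {n : Ideal (CInt R K t)}
    (hn : IsClosedPt ϖ n) (hrat : IsRat n) : PtStr ϖ Vi V0 n := by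
  obtain ⟨h1, h2⟩ := hSS n hn hrat
  by_cases hci : Centered Vi n
  · by_cases hc0 : Centered V0 n
    · exact Or.inr (Or.inr ⟨hci, hc0, nodeStr_of_ndAtS hϖ hB ht hn hci hc0 (h2 hci hc0)⟩)
    · exact Or.inl ⟨hci, hc0, branchDVR_one hϖ hB ht hn hrat (Or.inl ⟨rfl, rfl⟩) hci hc0 h1⟩
  · have hc0 : Centered V0 n := (hB.centered_or hϖ ht hn).resolve_left hci
    exact Or.inr (Or.inl ⟨hc0, hci, branchDVR_one hϖ hB ht hn hrat (Or.inr ⟨rfl, rfl⟩) hc0 hci h1⟩)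

/-- the local hypothesis of `frob_abs` from `m ∣ div f` with rational support. -/
theorem locHyp_of_valFam (hϖ : Irreducible ϖ) (hB : Branches (K := K) ϖ x Vi V0) {ι : Type}
    {w : ι → F → ℤ} (hw : ValFam K w) {t : F} (ht : t = x ∨ t = x⁻¹)
    (hfin : FiniteDimensional K⟮t⟯ F) (hint : IntAt K w t) (hSS : SSAtS (K := K) ϖ Vi V0 t)
    {m : ℕ} {f : F} (hf : f ≠ 0) (hdiv : ∀ i, (m : ℤ) ∣ w i f)
    (hrat : ∀ i, w i f ≠ 0 → RatAt K w i)
    (n : Ideal (CInt R K t)) (hn : IsClosedPt ϖ n) : LocHyp ϖ Vi V0 n m f := by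
  have := hn.max.isPrime
  by_cases hemp : ∀ i, Thru w i n → w i f = 0
  · exact Or.inl (genUnit_of_eq_zero hϖ hw hint n hf hemp)
  · push Not at hemp
    obtain ⟨i, hi, hi0⟩ := hemp
    have h𝔭 := da2_isSection hϖ hw hn hi (hrat i hi0)
    have hr : IsRat n := fun c => by
      obtain ⟨r, hr⟩ := h𝔭.rat c
      exact ⟨r, h𝔭.le hr⟩
    exact Or.inr ⟨ptStr_of_ssAtS hϖ hB ht hSS hn hr,
      locPow_of_valFam hϖ hw (hB.trans' ht) hfin hint (fun n hn hr => (hSS n hn hr).1) hf hdiv hrat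
        n hn⟩

end Fermat.Agent.S35
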