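import Fermat.Agent.S35.G.Transport
import Fermat.Agent.S35.G.PtStr
import Fermat.Agent.S34.SS.Final

set_option autoImplicit false
set_option linter.unusedSectionVars false

/-!
# S35 / G / CFrob : `σ²` is `FrobLike` with `Q = q²`; the refined structure theorem `SSAtS`

Language of `S34/SS/Defs.lean`: `F₁` the lower level, `ι1 ι2 : F₁ →ₐ[K] F` the two degeneracy maps, `Side` for `(Vi; ι1, ι2)` and `(V0; ι2, ι1)`.
`σF`, `σE` : the coefficientwise action of a Frobenius lift on `F`, `F₁`, with the TWISTED Frobenius congruences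
`ι2 (σE y) ≡ (ι1 y) ^ q` on `Vi`, `ι1 (σE y) ≡ (ι2 y) ^ q` on `V0`   (`V2.Two.frob_i`, `V2.Two.frob_0`).

At a closed point `n` on both branches, for `c ∈ C`: `c ≡ ι1 y` mod `n` (`Side.exists_sub_mem`), so
`σ² c ≡ ι1 (σE² y) ≡ (ι2 (σE y)) ^ q ≡ ((ι1 y) ^ q) ^ q ≡ c ^ (q²)` mod `n`.
-/

noncomputable section

namespace Fermat.Agent.S35

open Polynomial IntermediateField Fermat.Agent.S18 Fermat.Agent.S34

variable {R K F₁ F : Type} [CommRing R] [IsDomain R] [IsDiscreteValuationRing R] [Field K] [CharZero K]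
  [Algebra R K] [IsFractionRing R K] [Field F₁] [Algebra K F₁] [Field F] [Algebra K F] {ϖ : R}

variable {q : ℕ} {x : F} {Vi V0 : ValuationSubring F} {V₁ : ValuationSubring F₁}
  {ι1 ι2 : F₁ →ₐ[K] F}

/-- `z` is (the image of) an element of `n`. -/
def cfIn {t : F} (n : Ideal (CInt R K t)) (z : F) : Prop := ∃ w : CInt R K t, w ∈ n ∧ (w : F) = z

theorem cfIn.add {t : F} {n : Ideal (CInt R K t)} {y z : F} (hy : cfIn n y) (hz : cfIn n z) :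
    cfIn n (y + z) := by
  obtain ⟨a, ha, rfl⟩ := hy
  obtain ⟨b, hb, rfl⟩ := hz
  exact ⟨a + b, n.add_mem ha hb, rfl⟩

theorem cfIn.of_nonunits {t : F} {n : Ideal (CInt R K t)} {V : ValuationSubring F}
    (hc : Centered V n) {z : F} (hz : z ∈ CInt R K t) (hzV : z ∈ V.nonunits) : cfIn n z :=
  ⟨⟨z, hz⟩, hc ⟨z, hz⟩ hzV, rfl⟩

theorem cfIn.pow_sub_pow {t : F} {n : Ideal (CInt R K t)} {a b : F} (ha : a ∈ CInt R K t)
    (hb : b ∈ CInt R K t) (h : cfIn n (a - b)) (k : ℕ) : cfIn n (a ^ k - b ^ k) := by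
  obtain ⟨w, hw, e⟩ := h
  have hw' : (⟨a, ha⟩ : CInt R K t) - ⟨b, hb⟩ = w := Subtype.ext e.symm
  obtain ⟨c, hc⟩ := sub_dvd_pow_sub_pow (⟨a, ha⟩ : CInt R K t) ⟨b, hb⟩ k
  refine ⟨(⟨a, ha⟩ : CInt R K t) ^ k - ⟨b, hb⟩ ^ k, ?_, rfl⟩
  rw [hc, hw']
  exact n.mul_mem_right _ hw

theorem cfIn.inMax {t : F} {n : Ideal (CInt R K t)} [n.IsPrime] {z : F} (h : cfIn n z) :
    InMax n z := by
  obtain ⟨w, hw, rfl⟩ := h
  exact ⟨1, loc_one_notMem n, w, hw, by simp⟩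

/-- the node property for one chart. -/
theorem frob_node (hϖ : Irreducible ϖ) {σF : F ≃+* F} {σE : F₁ →+* F₁}
    (hσ : ChartAut R K x σF) (hVi : ∀ z : F, σF z ∈ Vi ↔ z ∈ Vi)
    (hcomm : ∀ y : F₁, σF (ι1 y) = ι1 (σE y))
    (hfi : ∀ y ∈ V₁, ι2 (σE y) - ι1 y ^ q ∈ Vi.nonunits)
    (hf0 : ∀ y ∈ V₁, ι1 (σE y) - ι2 y ^ q ∈ V0.nonunits)
    {t : F} (ht : t = x ∨ t = x⁻¹) {t₁ : F₁} (h1 : Chart1 K ϖ t₁ V₁)
    (hsi : Side R q t₁ V₁ t Vi ι1 ι2) (hσC : ∀ y ∈ CInt R K t₁, σE y ∈ CInt R K t₁)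
    {n : Ideal (CInt R K t)} [n.IsPrime] (hci : Centered Vi n) (hc0 : Centered V0 n)
    (c : CInt R K t) : InMax n ((σF.trans σF) (c : F) - (c : F) ^ (q ^ 2)) := by
  obtain ⟨y, hy, hcy⟩ := hsi.exists_sub_mem hϖ h1 c.2
  have hσy := hσC y hy
  have hσσy := hσC _ hσy
  have m1 := hsi.mapC_a y hy
  have m2 := hsi.mapC_b _ hσy
  have m3 := hsi.mapC_a _ hσσy
  -- the four brackets
  have b1 : cfIn n (σF (σF ((c : F) - ι1 y))) :=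
    cfIn.of_nonunits hci (hσ.mem_CInt ht (hσ.mem_CInt ht (sub_mem c.2 m1)))
      ((vc_map_nonunits hVi).2 ((vc_map_nonunits hVi).2 hcy))
  have b2 : cfIn n (ι1 (σE (σE y)) - ι2 (σE y) ^ q) :=
    cfIn.of_nonunits hc0 (sub_mem m3 (pow_mem m2 q)) (hf0 _ (h1.C_le hϖ hσy))
  have b3 : cfIn n (ι2 (σE y) ^ q - (ι1 y ^ q) ^ q) :=
    cfIn.pow_sub_pow m2 (pow_mem m1 q)
      (cfIn.of_nonunits hci (sub_mem m2 (pow_mem m1 q)) (hfi _ (h1.C_le hϖ hy))) q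
  have b4 : cfIn n (ι1 y ^ (q ^ 2) - (c : F) ^ (q ^ 2)) :=
    cfIn.pow_sub_pow m1 c.2 (cfIn.of_nonunits hci (sub_mem m1 c.2) (vc_symm hcy)) _
  have e : (σF.trans σF) (c : F) - (c : F) ^ (q ^ 2) =
      σF (σF ((c : F) - ι1 y)) + (ι1 (σE (σE y)) - ι2 (σE y) ^ q) +
        (ι2 (σE y) ^ q - (ι1 y ^ q) ^ q) + (ι1 y ^ (q ^ 2) - (c : F) ^ (q ^ 2)) := by
    rw [RingEquiv.trans_apply, map_sub, map_sub, hcomm, hcomm, ← pow_mul, ← sq]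
    ring
  rw [e]
  exact (((b1.add b2).add b3).add b4).inMax

/-- **chapter C**: `σ²` is `FrobLike` with `Q = q²`. -/
theorem frobLike_of_sides (hϖ : Irreducible ϖ) {σF : F ≃+* F} {σE : F₁ →+* F₁}
    (hσ : ChartAut R K x σF) (hVi : ∀ z : F, σF z ∈ Vi ↔ z ∈ Vi) (hV0 : ∀ z : F, σF z ∈ V0 ↔ z ∈ V0)
    (hcomm : ∀ y : F₁, σF (ι1 y) = ι1 (σE y))
    (hfi : ∀ y ∈ V₁, ι2 (σE y) - ι1 y ^ q ∈ Vi.nonunits)
    (hf0 : ∀ y ∈ V₁, ι1 (σE y) - ι2 y ^ q ∈ V0.nonunits)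
    (hch : ∀ t : F, t = x ∨ t = x⁻¹ → ∃ t₁ : F₁, Chart1 K ϖ t₁ V₁ ∧ Side R q t₁ V₁ t Vi ι1 ι2 ∧
      ∀ y ∈ CInt R K t₁, σE y ∈ CInt R K t₁) :
    FrobLike (K := K) ϖ x Vi V0 (q ^ 2) (σF.trans σF) where
  map_x := (hσ.trans hσ).map_x
  map_R := (hσ.trans hσ).map_R
  map_R_symm := (hσ.trans hσ).map_R_symm
  map_i z := by rw [RingEquiv.trans_apply, hVi, hVi]
  map_0 z := by rw [RingEquiv.trans_apply, hV0, hV0]
  node t ht n hn hci hc0 c := by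
    have := hn.max.isPrime
    obtain ⟨t₁, h1, hsi, hσC⟩ := hch t ht
    exact frob_node hϖ hσ hVi hcomm hfi hf0 ht h1 hsi hσC hci hc0 c

/-- the refined structure theorem from chapter SS. -/
theorem ssAtS_of_sides (hϖ : Irreducible ϖ) (hq : 2 ≤ q) (hB : Branches (K := K) ϖ x Vi V0)
    {t : F} (ht : t = x ∨ t = x⁻¹) {t₁ : F₁} (h1 : Chart1 K ϖ t₁ V₁)
    (hsi : Side R q t₁ V₁ t Vi ι1 ι2) (hs0 : Side R q t₁ V₁ t V0 ι2 ι1) {J D D' g Jq : F} {c₀ : R}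
    (hJ : JData (K := K) ϖ q t Vi V0 J D D' g Jq c₀) : SSAtS (K := K) ϖ Vi V0 t := by
  intro n hn hrat
  refine ⟨ssAt_of_sides hϖ hq hB ht h1 hsi hs0 hJ n hn hrat, fun hi h0 => ?_⟩
  obtain ⟨S, T, ϖ₀, hne, h, e⟩ := exists_node hϖ hq hB ht h1 hsi hs0 hJ hn hrat hi h0
  exact ⟨S, T, ϖ₀, hne, h.S_max, h.T_max, e, h.S_i, h.T_0,
    inv_mem_of_notMem_nonunits V0 (h0.mem_of_inLoc (chart_le_0 hϖ hB ht) h.S_max.inLoc) h.S_0,
    inv_mem_of_notMem_nonunits Vi (hi.mem_of_inLoc (chart_le_i hϖ hB ht) h.T_max.inLoc) h.T_i,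
    h.gen⟩

end Fermat.Agent.S35
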