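import Fermat.Agent.S35.G.Unit

set_option autoImplicit false
set_option linter.unusedSectionVars false

/-!
# S35 / G / WA : weak approximation for the two branches   (task G-WA)

`ρ ∈ 𝔪_Vi`, `ρ⁻¹ ∈ 𝔪_V0` (e.g. `ρ = e' / e`, `e' ∈ 𝔪_Vi ∩ V0ˣ`, `e ∈ 𝔪_V0 ∩ Viˣ`).

SKETCH.  `wa_absorb`: for `V` with uniformiser `ϖ` (`hunif`, `hmem`, `hdiv : z ∈ 𝔪_V → ϖ⁻¹ z ∈ V`), `ρ ∈ 𝔪_V` and any `c : F` there is `k₀` with `ρ ^ k * c ∈ 𝔪_V` for all `k ≥ k₀`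
 [`c = 0` trivial; else `ϖ ^ l * c ∈ V` for some `l : ℤ`; if `l ≤ 0`, `c ∈ V`, `k₀ = 1`; if `l > 0`: `ρ ^ k * c = (ϖ⁻¹ ρ) ^ l * ρ ^ (k - l) * (ϖ ^ l * c)`, `k₀ = l + 1`].
 `exists_approx`: `θ := (1 + ρ ^ k)⁻¹`.  On `Vi`: `1 + ρ ^ k` is a unit (`≡ 1`), `1 - θ = ρ ^ k * θ`.  On `V0`: `θ = (ρ⁻¹) ^ k * (1 + (ρ⁻¹) ^ k)⁻¹`, `1 + (ρ⁻¹)^k` a unit.
 `H := θ * ui + (1 - θ) * u0`.   `H / ui - 1 = (1 - θ) * (u0 / ui - 1) = θ * (ρ ^ k * (u0 / ui - 1)) ∈ 𝔪_Vi` for `k` large;  `H / u0 - 1 = θ * (ui / u0 - 1) = (1 + (ρ⁻¹)^k)⁻¹ * ((ρ⁻¹) ^ k * (ui / u0 - 1)) ∈ 𝔪_V0` for `k` large.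
 `1 + ρ ^ k ≠ 0` since it is `≡ 1` on `Vi` (`k ≥ 1`).  `H ≠ 0` since `H / ui ≡ 1`.
-/

noncomputable section

namespace Fermat.Agent.S35

open Polynomial IntermediateField Fermat.Agent.S18 Fermat.Agent.S34

variable {R K F : Type} [CommRing R] [IsDomain R] [IsDiscreteValuationRing R] [Field K] [CharZero K]
  [Algebra R K] [IsFractionRing R K] [Field F] [Algebra K F]
  {ϖ : R} {x : F} {Vi V0 : ValuationSubring F}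

theorem wa_absorb {V : ValuationSubring F} {a : F} (ha0 : a ≠ 0) (ha : a ∈ V.nonunits)
    (hunif : ∀ z : F, z ≠ 0 → ∃ k : ℤ, a ^ k * z ∈ V ∧ (a ^ k * z)⁻¹ ∈ V)
    {ρ : F} (hρ : ρ ∈ V.nonunits) (c : F) :
    ∃ k₀ : ℕ, ∀ k : ℕ, k₀ ≤ k → ρ ^ k * c ∈ V.nonunits := by
  obtain ⟨L, hL⟩ := unit_exists_pow_mul_mem ha0 ha hunif hρ c
  refine ⟨L + 1, fun k hk => ?_⟩
  obtain ⟨j, rfl⟩ := Nat.exists_eq_add_of_le hk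
  have e : ρ ^ (L + 1 + j) * c = ρ * (ρ ^ j * (ρ ^ L * c)) := by ring
  rw [e]
  exact mul_mem_nonunits' V hρ (mul_mem (pow_mem (mem_of_mem_nonunits V hρ) j) hL)

theorem exists_approx (hϖ : Irreducible ϖ) (hB : Branches (K := K) ϖ x Vi V0) {ρ : F}
    (hρ : ρ ≠ 0) (hρi : ρ ∈ Vi.nonunits)
    (hρ0 : ρ⁻¹ ∈ V0.nonunits) {ui u0 : F} (hui : ui ≠ 0) (hu0 : u0 ≠ 0) :
    ∃ H : F, H ≠ 0 ∧ H / ui - 1 ∈ Vi.nonunits ∧ H / u0 - 1 ∈ V0.nonunits := by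
  have hP := unit_unif_ne_zero (K := K) (F := F) hϖ
  obtain ⟨k₁, h₁⟩ := wa_absorb hP hB.mem_i hB.unif_i hρi (u0 / ui - 1)
  obtain ⟨k₂, h₂⟩ := wa_absorb hP hB.mem_0 hB.unif_0 hρ0 (ui / u0 - 1)
  set k := max k₁ k₂ + 1 with hk
  have hk1 : k₁ ≤ k := le_trans (le_max_left _ _) (Nat.le_succ _)
  have hk2 : k₂ ≤ k := le_trans (le_max_right _ _) (Nat.le_succ _)
  have hr0 : ρ ^ k ≠ 0 := pow_ne_zero _ hρ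
  have hri : ρ ^ k ∈ Vi.nonunits := by
    rw [hk, pow_succ]
    exact mul_mem_nonunits Vi (pow_mem (mem_of_mem_nonunits Vi hρi) _) hρi
  have hr0' : ρ⁻¹ ^ k ∈ V0.nonunits := by
    rw [hk, pow_succ]
    exact mul_mem_nonunits V0 (pow_mem (mem_of_mem_nonunits V0 hρ0) _) hρ0
  obtain ⟨a1, -, a3, -⟩ := glueLoc_unit (V := Vi) (u := 1 + ρ ^ k) (by rwa [add_sub_cancel_left])
  obtain ⟨b1, -, b3, -⟩ := glueLoc_unit (V := V0) (u := 1 + ρ⁻¹ ^ k)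
    (by rwa [add_sub_cancel_left])
  set H : F := (1 + ρ ^ k)⁻¹ * ui + (1 - (1 + ρ ^ k)⁻¹) * u0 with hH
  have e1 : H / ui - 1 = (1 + ρ ^ k)⁻¹ * (ρ ^ k * (u0 / ui - 1)) := by
    rw [hH]; field_simp; ring
  have e2 : H / u0 - 1 = (1 + ρ⁻¹ ^ k)⁻¹ * (ρ⁻¹ ^ k * (ui / u0 - 1)) := by
    have b1' : ρ ^ k + 1 ≠ 0 := by rwa [add_comm]
    rw [hH, inv_pow]
    rw [inv_pow] at b1
    field_simp
    ring
  have g1 : H / ui - 1 ∈ Vi.nonunits := by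
    rw [e1]; exact mul_mem_nonunits Vi a3 (h₁ k hk1)
  have g2 : H / u0 - 1 ∈ V0.nonunits := by
    rw [e2]; exact mul_mem_nonunits V0 b3 (h₂ k hk2)
  refine ⟨H, fun h0 => ?_, g1, g2⟩
  exact (glueLoc_unit g1).1 (by rw [h0, zero_div])

end Fermat.Agent.S35
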