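import Fermat.Agent.S35.G.Twist
import Fermat.Agent.S35.G.WA

set_option autoImplicit false
set_option linter.unusedSectionVars false

/-!
# S35 / G / G1 : a representative of `(σ + w) f` which is `≡ 1` on both branches   (abstract, in helper16's `Two` context)

Input: the two product formulas (`t = Q^{1/q}`)
 `a(t^q)^m = f(t^q) ∏_i (w f)(ζ^i t)`   (`N_α f = a^m`),     `b(t^q)^m = (w f)(t^q) ∏_i f(ζ^i t)`   (`N_β f = b^m`),
and constants `εi, ε0 : K` such that `f / εi^m` and `w f / ε0^m` are units of `Vi`.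
Output: `H` with `w f * σ f * H^m ≡ 1` on `Vi` and on `V0`.
-/

noncomputable section

namespace Fermat.Agent.S35

open ModularCurve Fermat.Agent.S18 Fermat.Agent.S18.V Fermat.Agent.S34 Fermat.Agent.S34.V2

variable {R K : Type} [CommRing R] [IsDomain R] [IsDiscreteValuationRing R] [Field K] [CharZero K]
  [Algebra R K] [IsFractionRing R K] {q : ℕ} [NeZero q] {E F : Type} [Field E] [Field F]
  [Algebra K E] [Algebra K F] [Algebra E F] [IsScalarTower K E F] (T : Two R K q E F)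

/-- an element which is small on `Vi` and whose inverse is small on `V0`. -/
theorem g1_exists_rho : ∃ ρ : F, ρ ≠ 0 ∧ ρ ∈ T.Vi.nonunits ∧ ρ⁻¹ ∈ T.V0.nonunits := by
  have e1 : T.jF T.xq = qExpand K q (T.jE T.x) := T.w_E T.x
  have e2 : T.jF T.xF = T.jE T.x := T.compat T.x
  have h1 : T.xq - T.xF ^ q ∈ T.Vi.nonunits := by
    rw [T.mem_Vi_nonunits, map_sub, map_pow, e1, e2]
    exact T.hfrob
  have h2 : T.xF - T.xq ^ q ∉ T.Vi.nonunits := by
    rw [T.mem_Vi_nonunits, map_sub, map_pow, e1, e2, ← T.hx]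
    exact sub_pow_notMem_nonunits q T.hq.two_le T.x₀ T.hord T.hlead
  have h2m : T.xF - T.xq ^ q ∈ T.Vi := sub_mem T.xF_mem_Vi (pow_mem T.xq_mem_Vi q)
  have h20 : T.xF - T.xq ^ q ≠ 0 := fun h => h2 (h ▸ zero_mem_nonunits _)
  have h2i := inv_mem_of_notMem_nonunits _ h2m h2
  have hw : T.w (T.xF - T.xq ^ q) = T.xq - T.xF ^ q := by
    rw [map_sub, map_pow]
    have : T.w T.xq = T.xF := T.w_w _
    rw [this]; rfl
  have hw' : T.w (T.xq - T.xF ^ q) = T.xF - T.xq ^ q := by rw [← hw, T.w_w]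
  have h10 : T.xq - T.xF ^ q ≠ 0 := by
    rw [← hw]; exact (map_ne_zero _).2 h20
  refine ⟨(T.xq - T.xF ^ q) / (T.xF - T.xq ^ q), div_ne_zero h10 h20, ?_, ?_⟩
  · rw [div_eq_mul_inv]
    exact mul_mem_nonunits' _ h1 h2i
  · rw [inv_div, T.mem_V0_nonunits, map_div₀, hw, hw', div_eq_mul_inv]
    exact mul_mem_nonunits' _ h1 h2i

variable (σ : K →+* K) (σR : R ≃+* R) (hσ : ∀ r, σ (algebraMap R K r) = algebraMap R K (σR r))
  (σF : F ≃+* F) (hσF : ∀ z, T.jF (σF z) = coeffMap σ (T.jF z))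
  (hF : ∀ r, ¬ IsUnit (σR r - r ^ q)) (z : Rˣ) (hz : ¬ IsUnit ((z : R) - 1))

include hσ hσF hF hz

/-- the key congruence on `Vi` (for `u = δ * u₁`, `u₁` a unit of `Vi`). -/
theorem g1_key_aux {u₁ Y : F} {δ : K} (hδ : δ ≠ 0) (hu₁0 : u₁ ≠ 0)
    (h1 : u₁ ∈ T.Vi) (h2 : u₁⁻¹ ∈ T.Vi)
    (hY : qExpand K q (T.jF Y) =
      ∏ i : Fin q, S28.twist (uK (K := K) z ^ (i : ℕ)) (T.jF (algebraMap K F δ * u₁))) :
    Y * algebraMap K F (σ δ / δ ^ q) / σF (algebraMap K F δ * u₁) - 1 ∈ T.Vi.nonunits := by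
  have ha0 : T.jF u₁ ≠ 0 := (map_ne_zero _).2 hu₁0
  have key := twist_prod_div q T.hq T.hqR σ σR hσ hF z hz (T.inQF u₁) ha0 (T.mem_Vi.1 h1)
    (by rw [← map_inv₀]; exact T.mem_Vi.1 h2)
  rw [T.mem_Vi_nonunits, ← qExpand_mem_nonunits_iff q (T.inQF _)]
  have hcδ : algebraMap K (LaurentSeries K) δ ≠ 0 := (map_ne_zero _).2 hδ
  have hσδ : σ δ ≠ 0 := (map_ne_zero _).2 hδ
  have hcσδ : algebraMap K (LaurentSeries K) (σ δ) ≠ 0 := (map_ne_zero _).2 hσδ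
  have hΦ0 : qExpand K q (coeffMap σ (T.jF u₁)) ≠ 0 := by
    rw [Ne, map_eq_zero_iff _ (qExpand_injective (R := K) q), map_eq_zero]
    exact ha0
  have e : qExpand K q (T.jF (Y * algebraMap K F (σ δ / δ ^ q) / σF (algebraMap K F δ * u₁) - 1)) =
      (∏ i : Fin q, S28.twist (uK (K := K) z ^ (i : ℕ)) (T.jF u₁)) /
        qExpand K q (coeffMap σ (T.jF u₁)) - 1 := by
    have hprod : ∏ i : Fin q, S28.twist (uK (K := K) z ^ (i : ℕ)) (T.jF (algebraMap K F δ * u₁)) =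
        algebraMap K (LaurentSeries K) δ ^ q *
          ∏ i : Fin q, S28.twist (uK (K := K) z ^ (i : ℕ)) (T.jF u₁) := by
      rw [map_mul, T.jF.commutes]
      simp only [map_mul, twist_algebraMap]
      rw [Finset.prod_mul_distrib, Finset.prod_const, Finset.card_univ, Fintype.card_fin]
    rw [map_sub, map_sub, map_one, map_one, map_div₀, map_div₀, map_mul, map_mul, hY, hprod,
      T.jF.commutes, qExpand_algebraMap', hσF, map_mul, T.jF.commutes, map_mul,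
      coeffMap_algebraMap', map_mul, qExpand_algebraMap', map_div₀, map_pow]
    field_simp
  rw [e]
  exact key

/-- the key congruence on `Vi`. -/
theorem g1_key {u Y : F} {δ : K} (hδ : δ ≠ 0) (hu : u ≠ 0)
    (h1 : (algebraMap K F δ)⁻¹ * u ∈ T.Vi) (h2 : ((algebraMap K F δ)⁻¹ * u)⁻¹ ∈ T.Vi)
    (hY : qExpand K q (T.jF Y) = ∏ i : Fin q, S28.twist (uK (K := K) z ^ (i : ℕ)) (T.jF u)) :
    Y * algebraMap K F (σ δ / δ ^ q) / σF u - 1 ∈ T.Vi.nonunits := by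
  have hC : algebraMap K F δ ≠ 0 := (map_ne_zero _).2 hδ
  have huu : algebraMap K F δ * ((algebraMap K F δ)⁻¹ * u) = u := by
    rw [← mul_assoc, mul_inv_cancel₀ hC, one_mul]
  have := g1_key_aux T σ σR hσ σF hσF hF z hz (Y := Y) hδ (mul_ne_zero (inv_ne_zero hC) hu) h1 h2
    (by rw [huu]; exact hY)
  rwa [huu] at this

variable (hσw : ∀ z, σF (T.w z) = T.w (σF z))

include hσw

/-- **G1 (abstract)**. -/
theorem g1_abs {ϖ : R} (hϖ : Irreducible ϖ) (hB : Branches (K := K) ϖ T.xF T.Vi T.V0) {m : ℕ}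
    {f : F} (hf : f ≠ 0) {a b : E} (ha : a ≠ 0) (hb : b ≠ 0) {εi ε0 : K} (hεi : εi ≠ 0)
    (hε0 : ε0 ≠ 0)
    (hfi : (algebraMap K F (εi ^ m))⁻¹ * f ∈ T.Vi)
    (hfi' : ((algebraMap K F (εi ^ m))⁻¹ * f)⁻¹ ∈ T.Vi)
    (hf0 : (algebraMap K F (ε0 ^ m))⁻¹ * T.w f ∈ T.Vi)
    (hf0' : ((algebraMap K F (ε0 ^ m))⁻¹ * T.w f)⁻¹ ∈ T.Vi)
    (Hα : qExpand K q (T.jE a) ^ m = qExpand K q (T.jF f) *
      ∏ i : Fin q, S28.twist (uK (K := K) z ^ (i : ℕ)) (T.jF (T.w f)))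
    (Hβ : qExpand K q (T.jE b) ^ m = qExpand K q (T.jF (T.w f)) *
      ∏ i : Fin q, S28.twist (uK (K := K) z ^ (i : ℕ)) (T.jF f)) :
    ∃ H : F, H ≠ 0 ∧ T.w f * σF f * H ^ m - 1 ∈ T.Vi.nonunits ∧
      T.w f * σF f * H ^ m - 1 ∈ T.V0.nonunits := by
  have hwf : T.w f ≠ 0 := (map_ne_zero _).2 hf
  have hσf : σF f ≠ 0 := (map_ne_zero_iff σF σF.injective).2 hf
  have hσwf : σF (T.w f) ≠ 0 := (map_ne_zero_iff σF σF.injective).2 hwf
  have hq0 : ∀ y : F, y ≠ 0 → qExpand K q (T.jF y) ≠ 0 := by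
    intro y hy
    rw [Ne, map_eq_zero_iff _ (qExpand_injective (R := K) q), map_eq_zero]
    exact hy
  have hκ : ∀ ε : K, σ (ε ^ m) / (ε ^ m) ^ q = (σ ε / ε ^ q) ^ m := by
    intro ε
    rw [map_pow, div_pow, ← pow_mul, ← pow_mul, mul_comm]
  -- `β`
  have kβ := g1_key T σ σR hσ σF hσF hF z hz (u := f) (Y := algebraMap E F b ^ m / T.w f)
    (pow_ne_zero m hεi) hf hfi hfi' (by
      rw [map_div₀, map_div₀, map_pow, map_pow, T.compat, Hβ, mul_div_cancel_left₀ _ (hq0 _ hwf)])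
  -- `α`
  have kα := g1_key T σ σR hσ σF hσF hF z hz (u := T.w f) (Y := algebraMap E F a ^ m / f)
    (pow_ne_zero m hε0) hwf hf0 hf0' (by
      rw [map_div₀, map_div₀, map_pow, map_pow, T.compat, Hα, mul_div_cancel_left₀ _ (hq0 _ hf)])
  rw [hκ, map_pow] at kβ kα
  set Ui : F := algebraMap K F (σ εi / εi ^ q) * algebraMap E F b with hUi
  set U0 : F := algebraMap K F (σ ε0 / ε0 ^ q) * T.i2 a with hU0
  have hc : ∀ ε : K, ε ≠ 0 → algebraMap K F (σ ε / ε ^ q) ≠ 0 := fun ε hε =>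
    (map_ne_zero _).2 (div_ne_zero ((map_ne_zero _).2 hε) (pow_ne_zero _ hε))
  have hUi0 : Ui ≠ 0 := mul_ne_zero (hc _ hεi) ((map_ne_zero _).2 hb)
  have hU00 : U0 ≠ 0 := mul_ne_zero (hc _ hε0) ((map_ne_zero _).2 ha)
  have ki : Ui ^ m / (T.w f * σF f) - 1 ∈ T.Vi.nonunits := by
    have e : Ui ^ m / (T.w f * σF f) =
        algebraMap E F b ^ m / T.w f * algebraMap K F (σ εi / εi ^ q) ^ m / σF f := by
      rw [hUi, mul_pow]; field_simp
    rw [e]; exact kβ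
  have k0 : U0 ^ m / (T.w f * σF f) - 1 ∈ T.V0.nonunits := by
    rw [← T.w_mem_V0_nonunits] at kα
    have e : U0 ^ m / (T.w f * σF f) - 1 =
        T.w (algebraMap E F a ^ m / f * algebraMap K F (σ ε0 / ε0 ^ q) ^ m / σF (T.w f) - 1) := by
      rw [map_sub, map_one, map_div₀, map_mul, map_div₀, map_pow, map_pow, T.w.commutes, ← hσw,
        T.w_w, hU0, mul_pow, T.i2_apply]
      field_simp
    rw [e]; exact kα
  obtain ⟨ρ, hρ0, hρi, hρ0'⟩ := g1_exists_rho T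
  obtain ⟨H, hH0, hHi, hH0'⟩ := exists_approx hϖ hB hρ0 hρi hρ0' (inv_ne_zero hUi0)
    (inv_ne_zero hU00)
  rw [div_inv_eq_mul] at hHi hH0'
  have hid : ∀ g U H : F, U ≠ 0 → g * H ^ m = g / U ^ m * (H * U) ^ m := by
    intro g U H hU
    rw [mul_pow]; field_simp
  refine ⟨H, hH0, ?_, ?_⟩
  · have h1 := (glueLoc_unit ki).2.2.2
    rw [inv_div] at h1
    have h2 := glueLoc_pow_sub_one hHi m
    have h3 := vc_mul (V := T.Vi) (one_mem _) (vc_mem (one_mem _) h2) h1 h2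
    rw [hid _ Ui H hUi0]
    rwa [one_mul] at h3
  · have h1 := (glueLoc_unit k0).2.2.2
    rw [inv_div] at h1
    have h2 := glueLoc_pow_sub_one hH0' m
    have h3 := vc_mul (V := T.V0) (one_mem _) (vc_mem (one_mem _) h2) h1 h2
    rw [hid _ U0 H hU00]
    rwa [one_mul] at h3

end Fermat.Agent.S35
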