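import Fermat.Agent.S35.G.Frac
import Fermat.Agent.S34.LF

set_option autoImplicit false
set_option linter.unusedSectionVars false

/-!
# S35 / G / DVR : the image of the local ring in the residue field of a branch is a DVR   (task G-DVR)

SKETCH.
* `chart_noetherian`: `S18.chart_finite` (`Module.Finite R[X] (integralClosure R[X] F)` for `chartAlg`), `R[X]` noetherian ⟹ the integral closure is a noetherian `R[X]`-module, hence a noetherian ring
  (`isNoetherian_of_isNoetherianRing_of_finite`, `IsNoetherianRing` of an algebra which is a noetherian module: `isNoetherianRing_of_... ` / `IsNoetherian` of ideals by restricting scalars); the carrier of `CInt R K t` is definitionally that of the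
  integral closure (`S18.mem_CInt`).  For `t = x⁻¹`: `hB.trans'`, and `FiniteDimensional K⟮x⁻¹⟯ F` from `hB.fin` (`K⟮x⁻¹⟯ = K⟮x⟯`; see `S18/AT/Inv.lean`).
* `exists_pow_mul`: suppose not.  Build `c_j` (`InLoc`, `c_0 = c`, `c_j ∉ 𝔪_V`, `c_j - π * c_{j+1} ∈ 𝔪_V`): `c_j` is not a `LocUnit` [otherwise `c ≡ π ^ j * c_j`, done], so it is `InMax` (`LocUnit.of_not_inMax`), `hgen` gives `c_{j+1}`;
  `c_{j+1} ∉ 𝔪_V` since `c_j ∉ 𝔪_V`.   Ideals of `C`: `J_j := {e : ∃ b, InLoc n b ∧ e - c_j * b ∈ 𝔪_V}`; `J_j ≤ J_{j+1}` (`c_j b ≡ c_{j+1} (π b)`).  Noetherian: `J_{j+1} = J_j` for some `j` (`monotone_stabilizes_iff_noetherian`).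
  Write `c_{j+1} = e / d` (`inLoc_iff_exists_div`), `e = d * c_{j+1} ∈ J_{j+1} = J_j`: `d c_{j+1} ≡ c_j b ≡ π c_{j+1} b`, so `c_{j+1} (d - π b) ∈ 𝔪_V`; `d - π b` is a `LocUnit` (`locUnit_of_notMem`, `locUnit_add_inMax`), hence a unit of `V` (`locUnit_mem`);
  so `c_{j+1} ∈ 𝔪_V`: contradiction.     (Alternatively: strong induction / `WellFounded` on the ideals.)
* `branchDVR_of_gen`: `e = e₁ / e₂` (`e₂ ∉ n`): `e₁ = e₂ * e ∈ C ∩ 𝔪_{V'}` is a unit of `V`.  `exists_frac`: `z = c / d`; `c`, `d` units of `V`; `exists_pow_mul` for both; `z ≡ π ^ (j₁ - j₂) * (a₁ / a₂)` (`vc_div`, `zpow_sub₀`, `π ≠ 0`).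
-/

noncomputable section

namespace Fermat.Agent.S35

open Polynomial IntermediateField Fermat.Agent.S18 Fermat.Agent.S34

variable {R K F : Type} [CommRing R] [IsDomain R] [IsDiscreteValuationRing R] [Field K] [CharZero K]
  [Algebra R K] [IsFractionRing R K] [Field F] [Algebra K F]
  {ϖ : R} {x : F} {Vi V0 : ValuationSubring F}

theorem chart_noetherian (hB : Branches (K := K) ϖ x Vi V0) {t : F} (ht : t = x ∨ t = x⁻¹) :
    IsNoetherianRing (CInt R K t) :=
  lf_noeth (hB.trans' ht) (frac_fin hB ht)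

/-- the ideal `{e ∈ C : e ∈ c * Oloc + 𝔪_V}`. -/
def dvrIdeal {t : F} (n : Ideal (CInt R K t)) [n.IsPrime] (V : ValuationSubring F)
    (hV : ∀ y ∈ CInt R K t, y ∈ V) (c : F) : Ideal (CInt R K t) where
  carrier := {e | ∃ b : F, InLoc n b ∧ (e : F) - c * b ∈ V.nonunits}
  zero_mem' := ⟨0, InLoc.of_mem n (CInt R K t).zero_mem, by simpa using zero_mem_nonunits V⟩
  add_mem' := by
    rintro e₁ e₂ ⟨b₁, h₁, g₁⟩ ⟨b₂, h₂, g₂⟩
    refine ⟨b₁ + b₂, h₁.add h₂, ?_⟩
    have e : ((e₁ + e₂ : CInt R K t) : F) - c * (b₁ + b₂) =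
        ((e₁ : F) - c * b₁) + ((e₂ : F) - c * b₂) := by
      rw [Subring.coe_add]; ring
    rw [e]
    exact add_mem_nonunits V g₁ g₂
  smul_mem' := by
    rintro r e ⟨b, h, g⟩
    refine ⟨(r : F) * b, (InLoc.of_mem n r.2).mul h, ?_⟩
    have e' : ((r • e : CInt R K t) : F) - c * ((r : F) * b) = (r : F) * ((e : F) - c * b) := by
      rw [smul_eq_mul, Subring.coe_mul]; ring
    rw [e']
    exact mul_mem_nonunits V (hV _ r.2) g

theorem exists_pow_mul (hB : Branches (K := K) ϖ x Vi V0) {t : F}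
    (ht : t = x ∨ t = x⁻¹) {n : Ideal (CInt R K t)} [n.IsPrime] {V : ValuationSubring F}
    (hV : ∀ y ∈ CInt R K t, y ∈ V) (hc : Centered V n) {π : F} (hπ : InMax n π)
    (hgen : ∀ z : F, InMax n z → ∃ a : F, InLoc n a ∧ z - π * a ∈ V.nonunits)
    {c : F} (hcl : InLoc n c) (hcV : c ∉ V.nonunits) :
    ∃ (j : ℕ) (a : F), LocUnit n a ∧ c - π ^ j * a ∈ V.nonunits := by
  have := chart_noetherian hB ht
  have hπV : π ∈ V := hc.mem_of_inLoc hV hπ.inLoc
  suffices H : ∀ (J : Ideal (CInt R K t)) (c : F), dvrIdeal n V hV c = J → InLoc n c →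
      c ∉ V.nonunits → ∃ (j : ℕ) (a : F), LocUnit n a ∧ c - π ^ j * a ∈ V.nonunits from
    H _ c rfl hcl hcV
  intro J
  induction J using WellFoundedGT.induction with
  | _ J ih =>
    intro c hJ hcl hcV
    by_cases hu : InMax n c
    · obtain ⟨c₁, hc₁, hcong⟩ := hgen c hu
      have hc₁V : c₁ ∈ V := hc.mem_of_inLoc hV hc₁
      have hc₁n : c₁ ∉ V.nonunits := by
        intro h
        apply hcV
        have := add_mem_nonunits V hcong (mul_mem_nonunits V hπV h)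
        rwa [sub_add_cancel] at this
      have hle : dvrIdeal n V hV c ≤ dvrIdeal n V hV c₁ := by
        rintro e ⟨b, hb, g⟩
        refine ⟨π * b, hπ.inLoc.mul hb, ?_⟩
        have e' : (e : F) - c₁ * (π * b) = ((e : F) - c * b) + (c - π * c₁) * b := by ring
        rw [e']
        exact add_mem_nonunits V g (mul_mem_nonunits' V hcong (hc.mem_of_inLoc hV hb))
      have hne : dvrIdeal n V hV c ≠ dvrIdeal n V hV c₁ := by
        intro heq
        obtain ⟨e, d, hd, rfl⟩ := inLoc_iff_exists_div.1 hc₁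
        have hd0 := (locUnit_of_notMem hd).1
        have hmem : e ∈ dvrIdeal n V hV ((e : F) / (d : F)) := by
          refine ⟨d, InLoc.of_mem n d.2, ?_⟩
          rw [div_mul_cancel₀ _ hd0, sub_self]
          exact zero_mem_nonunits V
        rw [← heq] at hmem
        obtain ⟨b, hb, g⟩ := hmem
        have hbV := hc.mem_of_inLoc hV hb
        -- `c₁ * (d - π b) ∈ 𝔪`
        have h1 : (e : F) / (d : F) * ((d : F) - π * b) ∈ V.nonunits := by
          have e' : (e : F) / (d : F) * ((d : F) - π * b) =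
              ((e : F) - c * b) + (c - π * ((e : F) / (d : F))) * b := by
            field_simp
            ring
          rw [e']
          exact add_mem_nonunits V g (mul_mem_nonunits' V hcong hbV)
        have hunit : LocUnit n ((d : F) - π * b) := by
          rw [sub_eq_add_neg]
          exact locUnit_add_inMax (locUnit_of_notMem hd) (inMax_neg (inMax_mul_right hπ hb))
        have h2 := mul_mem_nonunits' V h1 (locUnit_mem hV hc hunit).2
        rw [mul_assoc, mul_inv_cancel₀ hunit.1, mul_one] at h2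
        exact hc₁n h2
      obtain ⟨j, a, ha, hja⟩ := ih (dvrIdeal n V hV c₁) (hJ ▸ lt_of_le_of_ne hle hne) c₁ rfl hc₁ hc₁n
      refine ⟨j + 1, a, ha, ?_⟩
      have e' : c - π ^ (j + 1) * a = (c - π * c₁) + π * (c₁ - π ^ j * a) := by ring
      rw [e']
      exact add_mem_nonunits V hcong (mul_mem_nonunits V hπV hja)
    · refine ⟨0, c, LocUnit.of_not_inMax hcl hu, ?_⟩
      rw [pow_zero, one_mul, sub_self]
      exact zero_mem_nonunits V

theorem branchDVR_of_gen (hϖ : Irreducible ϖ) (hB : Branches (K := K) ϖ x Vi V0) {t : F}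
    (ht : t = x ∨ t = x⁻¹) {n : Ideal (CInt R K t)} (hn : IsClosedPt ϖ n)
    {V V' : ValuationSubring F} (hVV' : (V = Vi ∧ V' = V0) ∨ (V = V0 ∧ V' = Vi))
    (hc : Centered V n) {π e : F} (hπ : InMax n π) (hπ0 : π ≠ 0) (hπV : π⁻¹ ∈ V)
    (he : InLoc n e) (heV' : e ∈ V'.nonunits) (he0 : e ≠ 0) (heV : e⁻¹ ∈ V)
    (hgen : ∀ z : F, InMax n z → ∃ a : F, InLoc n a ∧ z - π * a ∈ V.nonunits) :
    BranchDVR V n π := by
  have := hn.max.isPrime
  obtain ⟨-, -, -, hCV, hCV', -⟩ := frac_aux hϖ hB ht hVV'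
  have hπVm : π ∈ V := hc.mem_of_inLoc hCV hπ.inLoc
  refine ⟨hπ, hπV, fun z hz0 hzV hzV' => ?_⟩
  obtain ⟨e₁, e₂, he₂, rfl⟩ := inLoc_iff_exists_div.1 he
  have hu₂ := locUnit_of_notMem he₂
  have he₁0 : (e₁ : F) ≠ 0 := fun h => he0 (by rw [h, zero_div])
  have he₁V' : (e₁ : F) ∈ V'.nonunits := by
    have := mul_mem_nonunits' V' heV' (hCV' _ e₂.2)
    rwa [div_mul_cancel₀ _ hu₂.1] at this
  have he₁V : (e₁ : F)⁻¹ ∈ V := by
    have := mul_mem heV (locUnit_mem hCV hc hu₂).2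
    rwa [inv_div, div_mul_eq_mul_div, mul_inv_cancel₀ hu₂.1, one_div] at this
  obtain ⟨c, d, hd0, hdV, rfl⟩ := exists_frac hϖ hB ht hVV' e₁.2 he₁V' he₁0 he₁V hzV
  have hc0 : (c : F) ≠ 0 := fun h => hz0 (by rw [h, zero_div])
  have hcV : (c : F)⁻¹ ∈ V := by
    have := mul_mem hzV' hdV
    rwa [inv_div, div_mul_eq_mul_div, mul_inv_cancel₀ hd0, one_div] at this
  obtain ⟨j₁, a₁, ha₁, h₁⟩ := exists_pow_mul hB ht hCV hc hπ hgen (InLoc.of_mem n c.2)
    (vc_not_nonunits hc0 hcV)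
  obtain ⟨j₂, a₂, ha₂, h₂⟩ := exists_pow_mul hB ht hCV hc hπ hgen (InLoc.of_mem n d.2)
    (vc_not_nonunits hd0 hdV)
  obtain ⟨u₁, -⟩ := locUnit_mem hCV hc ha₁
  obtain ⟨u₂, u₂'⟩ := locUnit_mem hCV hc ha₂
  refine ⟨(j₁ : ℤ) - (j₂ : ℤ), a₁ / a₂, locUnit_div ha₁ ha₂, ?_⟩
  have key := vc_div (V := V) (mul_mem (pow_mem hπVm j₁) u₁)
    (mul_ne_zero (pow_ne_zero j₂ hπ0) ha₂.1) (mul_mem (pow_mem hπVm j₂) u₂)
    (by rw [mul_inv, ← inv_pow]; exact mul_mem (pow_mem hπV j₂) u₂') h₁ h₂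
  have e' : π ^ ((j₁ : ℤ) - (j₂ : ℤ)) * (a₁ / a₂) = π ^ j₁ * a₁ / (π ^ j₂ * a₂) := by
    rw [zpow_sub₀ hπ0, zpow_natCast, zpow_natCast, div_mul_div_comm]
  rw [e']
  exact key

end Fermat.Agent.S35
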