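import Fermat.Agent.S34.T1

set_option autoImplicit false

/-!
# S35 / G : abstract language for "`s² = q²` on the toric part"

Setting of `S34/Defs.lean`: `R` a DVR with uniformiser `ϖ`, `K = Frac R`, `F / K` a function field, `x : F`,
`Vi`, `V0` the two branches, `CInt R K t` (`t = x`, `x⁻¹`) the two charts, `n` a closed point.

GOAL (abstract, `Abs.lean`): `y ≡ 1` on both branches, `y` locally an `m`-th power up to units of `Oloc[1/ϖ]`, `s : F ≃+* F` "the square of a
Frobenius lift" (`Q = q²`)  ⟹  `s y / y ^ Q` is an `m`-th power (`m = p ^ k`).   Route: normal form `NF`, then `S34.LocData`, then `S34.t1`.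
-/

noncomputable section

namespace Fermat.Agent.S35

open Polynomial IntermediateField Fermat.Agent.S18 Fermat.Agent.S34

section
variable {R K F : Type} [CommRing R] [Field K] [Algebra R K] [Field F] [Algebra K F]

/-- `h` reduces, on the branch `V`, to (the reduction of) a unit of the local ring at `n`. -/
def RedUnit (V : ValuationSubring F) {t : F} (n : Ideal (CInt R K t)) (h : F) : Prop :=
  ∃ a : F, LocUnit n a ∧ h - a ∈ V.nonunits

/-- **normal form** of `y` at `n`: `y = (unit of Oloc n) * h ^ m`, where `h` reduces to a local unit on every branch through `n`. -/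
def NF (Vi V0 : ValuationSubring F) {t : F} (n : Ideal (CInt R K t)) (m : ℕ) (y : F) : Prop :=
  ∃ h : F, h ≠ 0 ∧ LocUnit n (y / h ^ m) ∧ (Centered Vi n → RedUnit Vi n h) ∧
    (Centered V0 n → RedUnit V0 n h)

/-- the image of `Oloc n` in the residue field of the branch `V` is a DVR with uniformiser (the image of) `π`, and its
fraction field is the whole residue field. -/
def BranchDVR (V : ValuationSubring F) {t : F} (n : Ideal (CInt R K t)) (π : F) : Prop :=
  InMax n π ∧ π⁻¹ ∈ V ∧ ∀ z : F, z ≠ 0 → z ∈ V → z⁻¹ ∈ V →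
    ∃ (j : ℤ) (a : F), LocUnit n a ∧ z - π ^ j * a ∈ V.nonunits

/-- at a point on both branches: `n = p_i + p_0` (locally). -/
def NodeSplit (Vi V0 : ValuationSubring F) {t : F} (n : Ideal (CInt R K t)) : Prop :=
  ∀ z : F, InMax n z → ∃ zi z0 : F, InLoc n zi ∧ InLoc n z0 ∧ z = zi + z0 ∧
    zi ∈ Vi.nonunits ∧ z0 ∈ V0.nonunits

/-- the structure of a node: `S` is a unit of `Oloc n [1/ϖ]` and a uniformiser of the branch `V0` at `n`; `T` is a uniformiser of
the branch `Vi` at `n`; `n = p_i + p_0`. -/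
def NodeStr (ϖ : R) (Vi V0 : ValuationSubring F) {t : F} (n : Ideal (CInt R K t)) : Prop :=
  NodeSplit Vi V0 n ∧ ∃ S T : F, GenUnit ϖ n S ∧ BranchDVR V0 n S ∧ BranchDVR Vi n T

/-- the structure of the special fibre at a closed point (refinement of `S34.SmAt ∨ S34.NdAt`). -/
def PtStr (ϖ : R) (Vi V0 : ValuationSubring F) {t : F} (n : Ideal (CInt R K t)) : Prop :=
  (Centered Vi n ∧ ¬ Centered V0 n ∧ ∃ π : F, BranchDVR Vi n π) ∨
  (Centered V0 n ∧ ¬ Centered Vi n ∧ ∃ π : F, BranchDVR V0 n π) ∨
  (Centered Vi n ∧ Centered V0 n ∧ NodeStr ϖ Vi V0 n)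

/-- an automorphism of `F` which behaves like the square of a Frobenius lift (`Q = q²`): it fixes `x`, preserves `R` and both branches, and
at every point lying on both branches it induces `c ↦ c ^ Q` on the residue field (in particular it fixes that point). -/
structure FrobLike (ϖ : R) (x : F) (Vi V0 : ValuationSubring F) (Q : ℕ) (s : F ≃+* F) : Prop where
  map_x : s x = x
  map_R : ∀ r : R, ∃ r' : R, s (rE R K F r) = rE R K F r'
  map_R_symm : ∀ r : R, ∃ r' : R, s.symm (rE R K F r) = rE R K F r'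
  map_i : ∀ z : F, s z ∈ Vi ↔ z ∈ Vi
  map_0 : ∀ z : F, s z ∈ V0 ↔ z ∈ V0
  node : ∀ t : F, t = x ∨ t = x⁻¹ → ∀ n : Ideal (CInt R K t), IsClosedPt ϖ n → Centered Vi n →
    Centered V0 n → ∀ c : CInt R K t, InMax n (s (c : F) - (c : F) ^ Q)

/-- the local hypothesis on `y` at a closed point. -/
def LocHyp (ϖ : R) (Vi V0 : ValuationSubring F) {t : F} (n : Ideal (CInt R K t)) (m : ℕ) (y : F) :
    Prop :=
  GenUnit ϖ n y ∨ (PtStr ϖ Vi V0 n ∧ LocPow ϖ n m y)

end

end Fermat.Agent.S35
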