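import Fermat.Agent.S35.G.Unit
import Fermat.Agent.S34.Val

set_option autoImplicit false
set_option linter.unusedSectionVars false

/-!
# S35 / G / Frac : a branch is the localisation of the chart   (task G-Frac)

`V`, `V'` = the two branches (in either order).  `e ∈ C = CInt R K t` with `e ∈ 𝔪_{V'}`, `e` a unit of `V`.

SKETCH of `exists_frac`.  (0) `F = Frac C`: every `z : F` is `c₀ / d₀`, `c₀ d₀ ∈ C`, `d₀ ≠ 0` (`frac_exists_div`: `z` is algebraic over `K⟮t⟯`, hence over `R[t]`: multiply a polynomial relation by denominators;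
 `IsIntegral`-trick `exists_integral_multiple`, via `S18.chartAlg`, `S18.chart_isFractionRing`, `hB.fin`; for `t = x⁻¹` note `K⟮x⁻¹⟯ = K⟮x⟯`; look in `S18/AT/InO.lean`, `S18/AT/Inv.lean` for what exists).
 (1) `unif` for `V`: `ϖ ^ k * d₀` is a unit of `V`; as `d₀ ∈ V`, `k ≤ 0`; put `l := -k ≥ 0` (natural number), `d₀ = ϖ ^ l * unit`.
 (2) `g := (ϖ⁻¹ * e) ^ l`: `g ∈ V'` (`Branches.div_mem_*`), and `d := d₀ * g`, `c := c₀ * g`.   `d = (d₀ / ϖ ^ l) * e ^ l` is a unit of `V`; `d ∈ V'`; `ϖ ^ l * d = d₀ * e ^ l ∈ C`; so `d ∈ C` (`frac_sat`: iterate `Branches.sat`).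
     `c = z * d ∈ V`, `c ∈ V'`, `ϖ ^ l * c ∈ C`, so `c ∈ C`.   `z = c / d`.
-/

noncomputable section

namespace Fermat.Agent.S35

open Polynomial IntermediateField Fermat.Agent.S18 Fermat.Agent.S34

variable {R K F : Type} [CommRing R] [IsDomain R] [IsDiscreteValuationRing R] [Field K] [CharZero K]
  [Algebra R K] [IsFractionRing R K] [Field F] [Algebra K F]
  {ϖ : R} {x : F} {Vi V0 : ValuationSubring F}

/-- iterated saturation. -/
theorem frac_sat (hϖ : Irreducible ϖ) (hB : Branches (K := K) ϖ x Vi V0) {t : F}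
    (ht : t = x ∨ t = x⁻¹) {y : F} (l : ℕ) (h : rE R K F ϖ ^ l * y ∈ CInt R K t) (hi : y ∈ Vi)
    (h0 : y ∈ V0) : y ∈ CInt R K t := by
  induction l with
  | zero => simpa using h
  | succ l ih =>
    apply ih
    have hϖi : rE R K F ϖ ∈ Vi := mem_of_mem_nonunits Vi hB.mem_i
    have hϖ0 : rE R K F ϖ ∈ V0 := mem_of_mem_nonunits V0 hB.mem_0
    refine hB.sat hϖ ht ?_ (mul_mem (pow_mem hϖi l) hi) (mul_mem (pow_mem hϖ0 l) h0)
    rw [← mul_assoc, ← pow_succ']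
    exact h

theorem frac_fin (hB : Branches (K := K) ϖ x Vi V0) {t : F} (ht : t = x ∨ t = x⁻¹) :
    FiniteDimensional K⟮t⟯ F := by
  rcases ht with rfl | rfl
  · exact hB.fin
  · rw [← glue_adjoin_inv]
    exact hB.fin

/-- `F` is the fraction field of the chart. -/
theorem frac_exists_div (hB : Branches (K := K) ϖ x Vi V0) {t : F} (ht : t = x ∨ t = x⁻¹) (z : F) :
    ∃ c d : CInt R K t, (d : F) ≠ 0 ∧ z = (c : F) / (d : F) := by
  obtain ⟨b, hb, h⟩ := exists_mul_mem_CInt (R := R) (hB.trans' ht) (frac_fin hB ht) z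
  have hb0 : (b : F) ≠ 0 := fun h0 => hb (Subtype.ext h0)
  refine ⟨⟨_, h⟩, b, hb0, ?_⟩
  show z = (b : F) * z / (b : F)
  field_simp

/-- version of `exists_frac` with the data of the branch `V` spelled out. -/
theorem frac_aux (hϖ : Irreducible ϖ) (hB : Branches (K := K) ϖ x Vi V0) {t : F}
    (ht : t = x ∨ t = x⁻¹) {V V' : ValuationSubring F}
    (hVV' : (V = Vi ∧ V' = V0) ∨ (V = V0 ∧ V' = Vi)) :
    (∀ y : F, y ∈ V → y ∈ V' → ∀ l : ℕ, rE R K F ϖ ^ l * y ∈ CInt R K t → y ∈ CInt R K t) ∧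
    (∀ z : F, z ≠ 0 → ∃ k : ℤ, rE R K F ϖ ^ k * z ∈ V ∧ (rE R K F ϖ ^ k * z)⁻¹ ∈ V) ∧
    (∀ z : F, z ∈ V'.nonunits → (rE R K F ϖ)⁻¹ * z ∈ V') ∧
    (∀ y ∈ CInt R K t, y ∈ V) ∧ (∀ y ∈ CInt R K t, y ∈ V') ∧ rE R K F ϖ ∈ V.nonunits := by
  rcases hVV' with ⟨rfl, rfl⟩ | ⟨rfl, rfl⟩
  · exact ⟨fun y h1 h2 l h => frac_sat hϖ hB ht l h h1 h2, hB.unif_i, fun z hz => hB.div_mem_0 hz,
      chart_le_i hϖ hB ht, chart_le_0 hϖ hB ht, hB.mem_i⟩
  · exact ⟨fun y h1 h2 l h => frac_sat hϖ hB ht l h h2 h1, hB.unif_0, fun z hz => hB.div_mem_i hz,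
      chart_le_0 hϖ hB ht, chart_le_i hϖ hB ht, hB.mem_0⟩

theorem exists_frac (hϖ : Irreducible ϖ) (hB : Branches (K := K) ϖ x Vi V0) {t : F}
    (ht : t = x ∨ t = x⁻¹) {V V' : ValuationSubring F}
    (hVV' : (V = Vi ∧ V' = V0) ∨ (V = V0 ∧ V' = Vi)) {e : F} (he : e ∈ CInt R K t)
    (heV' : e ∈ V'.nonunits) (he0 : e ≠ 0) (heV : e⁻¹ ∈ V) {z : F} (hz : z ∈ V) :
    ∃ c d : CInt R K t, (d : F) ≠ 0 ∧ (d : F)⁻¹ ∈ V ∧ z = (c : F) / (d : F) := by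
  obtain ⟨hsat, hunif, hdiv, hCV, hCV', hϖV⟩ := frac_aux hϖ hB ht hVV'
  have hP := unit_unif_ne_zero (K := K) (F := F) hϖ
  obtain ⟨c₀, d₀, hd₀, rfl⟩ := frac_exists_div hB ht z
  obtain ⟨k, hk1, hk2⟩ := hunif _ hd₀
  -- `k ≤ 0`
  obtain ⟨l, hl⟩ : ∃ l : ℕ, k = -(l : ℤ) := by
    rcases Int.le_total k 0 with h | h
    · exact ⟨(-k).toNat, by rw [Int.toNat_of_nonneg (by omega)]; ring⟩
    · rcases eq_or_lt_of_le h with h0 | hpos
      · exact ⟨0, by simp [← h0]⟩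
      · exfalso
        obtain ⟨j, rfl⟩ : ∃ j : ℕ, k = (j : ℤ) + 1 := ⟨(k - 1).toNat, by
          rw [Int.toNat_of_nonneg (by omega)]; ring⟩
        have h1 : rE R K F ϖ ^ ((j : ℤ) + 1) * (d₀ : F) ∈ V.nonunits := by
          rw [zpow_add_one₀ hP, zpow_natCast, mul_assoc]
          exact mul_mem_nonunits V (pow_mem (mem_of_mem_nonunits V hϖV) j)
            (mul_mem_nonunits' V hϖV (hCV _ d₀.2))
        exact vc_not_nonunits (mul_ne_zero (zpow_ne_zero _ hP) hd₀) hk2 h1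
  subst hl
  rw [zpow_neg, zpow_natCast] at hk1 hk2
  set g : F := ((rE R K F ϖ)⁻¹ * e) ^ l with hg
  have hg0 : g ≠ 0 := pow_ne_zero _ (mul_ne_zero (inv_ne_zero hP) he0)
  have hgV' : g ∈ V' := pow_mem (hdiv e heV') l
  have heVm : e ∈ V := hCV _ he
  have hPg : ∀ y : F, rE R K F ϖ ^ l * (y * g) = y * e ^ l := by
    intro y
    rw [hg, mul_pow, inv_pow]
    field_simp
  have hdV : (d₀ : F) * g ∈ V ∧ ((d₀ : F) * g)⁻¹ ∈ V := by
    have e1 : (d₀ : F) * g = (rE R K F ϖ ^ l)⁻¹ * (d₀ : F) * e ^ l := by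
      rw [hg, mul_pow, inv_pow]; ring
    rw [e1, mul_inv, ← inv_pow e]
    exact ⟨mul_mem hk1 (pow_mem heVm l), mul_mem hk2 (pow_mem heV l)⟩
  have hdC : (d₀ : F) * g ∈ CInt R K t :=
    hsat _ hdV.1 (mul_mem (hCV' _ d₀.2) hgV') l (by rw [hPg]; exact mul_mem d₀.2 (pow_mem he l))
  have hcV : (c₀ : F) * g ∈ V := by
    have e1 : (c₀ : F) * g = (c₀ : F) / (d₀ : F) * ((d₀ : F) * g) := by field_simp
    rw [e1]
    exact mul_mem hz hdV.1
  have hcC : (c₀ : F) * g ∈ CInt R K t :=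
    hsat _ hcV (mul_mem (hCV' _ c₀.2) hgV') l (by rw [hPg]; exact mul_mem c₀.2 (pow_mem he l))
  refine ⟨⟨_, hcC⟩, ⟨_, hdC⟩, mul_ne_zero hd₀ hg0, hdV.2, ?_⟩
  show (c₀ : F) / (d₀ : F) = (c₀ : F) * g / ((d₀ : F) * g)
  field_simp

end Fermat.Agent.S35
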