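import Fermat.Agent.S35.G.NFOne

set_option autoImplicit false
set_option linter.unusedSectionVars false

/-!
# S35 / G / NFNode : the normal form at a point lying on BOTH branches   (task G-NFNode)

SKETCH of `nf_node`.  `LocPow`: `y = ε₀ * h₀ ^ m`, `ε₀` `GenUnit`, `h₀ ≠ 0`.  `S`, `T` from `NodeStr`.
 1. `hB.unif_0 h₀`: `h₁ := ϖ ^ k * h₀` is a unit of `V0`.  `BranchDVR V0 n S`: `h₁ ≡ S ^ j * a` mod `𝔪_V0`, `a` `LocUnit`.  `S` is a unit of `V0`.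
    `h₂ := h₁ / S ^ j ≡ a` mod `𝔪_V0`.   `ε₂ := y / h₂ ^ m = ε₀ * (ϖ ^ k)⁻¹ ^ m * (S ^ j) ^ m` is `GenUnit`.   `ε₂ ≡ (a ^ m)⁻¹` mod `𝔪_V0` (as `y ≡ 1`), so it is a unit of `V0`.
 2. `ε₂` is a unit of `Vi`: `vc_trichotomy Vi ε₂`.  If `ε₂ ∈ 𝔪_Vi`: `ε₂ ∈ Vi ∩ V0` and `GenUnit` ⟹ `InLoc` (`Branches.sat_loc`), so `InMax` (`inMax_of_nonunits`, `Vi` centred);
    `ε₂ - (a ^ m)⁻¹` is `InLoc` and in `𝔪_V0` ⟹ `InMax`; so `(a ^ m)⁻¹` is `InMax`, contradiction with `locUnit_not_inMax`.  If `ε₂⁻¹ ∈ 𝔪_Vi`: same with `ε₂⁻¹ ≡ a ^ m`.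
 3. `ε₂` is `LocUnit` (`Branches.locUnit_of_genUnit`).   `h₂ ^ m = y / ε₂` is a unit of `Vi`, so `h₂` is (`vc_unit_of_pow`).
 4. `BranchDVR Vi n T`: `h₂ ≡ T ^ j' * a'` mod `𝔪_Vi`;  `1 ≡ y = ε₂ * h₂ ^ m ≡ T ^ (j' * m) * (ε₂ * a' ^ m)` ⟹ `j' = 0` (`zpow_eq_zero_of_cong`).   `NF`-data: `h := h₂`.
-/

noncomputable section

namespace Fermat.Agent.S35

open Polynomial IntermediateField Fermat.Agent.S18 Fermat.Agent.S34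

variable {R K F : Type} [CommRing R] [IsDomain R] [IsDiscreteValuationRing R] [Field K] [CharZero K]
  [Algebra R K] [IsFractionRing R K] [Field F] [Algebra K F]
  {ϖ : R} {x : F} {Vi V0 : ValuationSubring F}

/-- a unit of `Oloc[1/ϖ]` which reduces to a local unit on `V0` cannot vanish on `Vi`. -/
theorem nfNode_aux (hϖ : Irreducible ϖ) (hB : Branches (K := K) ϖ x Vi V0) {t : F}
    (ht : t = x ∨ t = x⁻¹) {n : Ideal (CInt R K t)} [n.IsPrime]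
    (hci : Centered Vi n) (hc0 : Centered V0 n) {e b : F} (he : GenUnit ϖ n e) (hb : LocUnit n b)
    (h0 : e - b ∈ V0.nonunits) (hi : e ∈ Vi.nonunits) : False := by
  have hVi := chart_le_i hϖ hB ht
  have hV0 := chart_le_0 hϖ hB ht
  obtain ⟨-, k, g1, -⟩ := he
  have heV0 : e ∈ V0 := vc_mem (locUnit_mem hV0 hc0 hb).1 h0
  have hl : InLoc n e := hB.sat_loc hϖ ht k g1 (mem_of_mem_nonunits Vi hi) heV0
  have h1 : InMax n e := inMax_of_nonunits hVi hci hl hi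
  have h2 : InMax n (e - b) := inMax_of_nonunits hV0 hc0 (hl.sub hb.2.1) h0
  have h3 := inMax_sub h1 h2
  rw [sub_sub_cancel] at h3
  exact locUnit_not_inMax hb h3

theorem nf_node (hϖ : Irreducible ϖ) (hB : Branches (K := K) ϖ x Vi V0) {t : F}
    (ht : t = x ∨ t = x⁻¹) {n : Ideal (CInt R K t)} (hn : IsClosedPt ϖ n)
    (hci : Centered Vi n) (hc0 : Centered V0 n) (hstr : NodeStr ϖ Vi V0 n) {m : ℕ}
    (hm : m ≠ 0) {y : F} (hyi : y - 1 ∈ Vi.nonunits) (hy0 : y - 1 ∈ V0.nonunits)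
    (hpow : LocPow ϖ n m y) : NF Vi V0 n m y := by
  have := hn.max.isPrime
  have hVi := chart_le_i hϖ hB ht
  have hV0 := chart_le_0 hϖ hB ht
  obtain ⟨-, S, T, hS, ⟨hSM, hSV, hSd⟩, ⟨hTM, hTV, hTd⟩⟩ := hstr
  obtain ⟨h₀, ε₀, hh₀, hε₀, hyeq⟩ := hpow
  obtain ⟨k, hk1, hk2⟩ := hB.unif_0 h₀ hh₀
  have hP0 : rE R K F ϖ ^ k ≠ 0 := zpow_ne_zero _ (unit_unif_ne_zero hϖ)
  set h₁ : F := rE R K F ϖ ^ k * h₀ with hh₁
  have hh₁0 : h₁ ≠ 0 := mul_ne_zero hP0 hh₀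
  obtain ⟨j, a, ha, hcong⟩ := hSd h₁ hh₁0 hk1 hk2
  have hS0 : S ≠ 0 := hS.1
  have hSj0 : S ^ j ≠ 0 := zpow_ne_zero _ hS0
  have hSV0 : S ∈ V0 := hc0.mem_of_inLoc hV0 hSM.inLoc
  obtain ⟨hSj, hSj'⟩ := vc_zpow_mem hSV0 hSV j
  set h₂ : F := h₁ / S ^ j with hh₂
  have hh₂0 : h₂ ≠ 0 := div_ne_zero hh₁0 hSj0
  have hcong2 : h₂ - a ∈ V0.nonunits := by
    have e : h₂ - a = (S ^ j)⁻¹ * (h₁ - S ^ j * a) := by
      rw [hh₂]; field_simp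
    rw [e]
    exact mul_mem_nonunits V0 hSj' hcong
  obtain ⟨haV0, haV0'⟩ := locUnit_mem hV0 hc0 ha
  have ham := locUnit_pow ha m
  obtain ⟨hamV0, hamV0'⟩ := locUnit_mem hV0 hc0 ham
  have hεeq : y / h₂ ^ m = ε₀ * ((rE R K F ϖ ^ k) ^ m)⁻¹ * (S ^ j) ^ m := by
    rw [hyeq, hh₂, hh₁, div_pow, mul_pow]
    field_simp
  have hgen : GenUnit ϖ n (y / h₂ ^ m) := by
    rw [hεeq]
    exact genUnit_mul (genUnit_mul hε₀
      (genUnit_inv (genUnit_pow (genUnit_zpow (genUnit_unif hϖ) k) m)))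
      (genUnit_pow (genUnit_zpow hS j) m)
  have hε0 : y / h₂ ^ m - (a ^ m)⁻¹ ∈ V0.nonunits := by
    have := vc_div (V := V0) (one_mem V0) ham.1 hamV0 hamV0' hy0 (vc_pow haV0 hcong2 m)
    rwa [one_div] at this
  obtain ⟨hεne, hεV0, hεV0'⟩ := vc_unit (inv_ne_zero ham.1) hamV0' (by rwa [inv_inv]) hε0
  have hεi : y / h₂ ^ m ∈ Vi ∧ (y / h₂ ^ m)⁻¹ ∈ Vi := by
    rcases vc_trichotomy Vi (y / h₂ ^ m) with h | h | h
    · exact (nfNode_aux hϖ hB ht hci hc0 hgen (locUnit_inv ham) hε0 h).elim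
    · have h' := vc_inv (inv_ne_zero ham.1) hamV0' (by rwa [inv_inv]) hε0
      rw [inv_inv] at h'
      exact (nfNode_aux hϖ hB ht hci hc0 (genUnit_inv hgen) ham h' h).elim
    · exact h
  have hε : LocUnit n (y / h₂ ^ m) := hB.locUnit_of_genUnit hϖ ht hgen hεi.1 hεi.2 hεV0 hεV0'
  obtain ⟨hyne, hyVi, hyVi', -⟩ := glueLoc_unit hyi
  have hpw : h₂ ^ m ∈ Vi ∧ (h₂ ^ m)⁻¹ ∈ Vi := by
    have e1 : h₂ ^ m = y * (y / h₂ ^ m)⁻¹ := by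
      rw [inv_div]; field_simp
    have e2 : (h₂ ^ m)⁻¹ = y / h₂ ^ m * y⁻¹ := by
      field_simp
    exact ⟨e1 ▸ mul_mem hyVi hεi.2, e2 ▸ mul_mem hεi.1 hyVi'⟩
  obtain ⟨hh₂i, hh₂i'⟩ := vc_unit_of_pow hm hpw.1 hpw.2
  obtain ⟨j', a', ha', hcong'⟩ := hTd h₂ hh₂0 hh₂i hh₂i'
  have hj' : j' = 0 := nf_exponent_zero hVi hci hTM hTV hm hyi hh₂0 hε ha' hcong'
  rw [hj', zpow_zero, one_mul] at hcong'
  exact ⟨h₂, hh₂0, hε, fun _ => ⟨a', ha', hcong'⟩, fun _ => ⟨a, ha, hcong2⟩⟩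

end Fermat.Agent.S35
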