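import Fermat.Agent.S35.G.NFOne
import Fermat.Agent.S35.G.NFNode

set_option autoImplicit false

/-! # S35 / G / NF : the normal form at every closed point -/

noncomputable section

namespace Fermat.Agent.S35

open Polynomial IntermediateField Fermat.Agent.S18 Fermat.Agent.S34

variable {R K F : Type} [CommRing R] [IsDomain R] [IsDiscreteValuationRing R] [Field K] [CharZero K]
  [Algebra R K] [IsFractionRing R K] [Field F] [Algebra K F]
  {ϖ : R} {x : F} {Vi V0 : ValuationSubring F}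

/-- `y ≡ 1` on both branches and `GenUnit` ⟹ `LocUnit`. -/
theorem locUnit_of_genUnit_one (hϖ : Irreducible ϖ) (hB : Branches (K := K) ϖ x Vi V0) {t : F}
    (ht : t = x ∨ t = x⁻¹) {n : Ideal (CInt R K t)} (hn : IsClosedPt ϖ n) {y : F}
    (hyi : y - 1 ∈ Vi.nonunits) (hy0 : y - 1 ∈ V0.nonunits) (h : GenUnit ϖ n y) : LocUnit n y := by
  haveI := hn.max.isPrime
  obtain ⟨-, a1, a2, -⟩ := glueLoc_unit hyi
  obtain ⟨-, b1, b2, -⟩ := glueLoc_unit hy0
  exact hB.locUnit_of_genUnit hϖ ht h a1 a2 b1 b2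

theorem nf_of_locUnit {t : F} {n : Ideal (CInt R K t)} [n.IsPrime] {m : ℕ} {y : F}
    (h : LocUnit n y) : NF Vi V0 n m y := by
  refine ⟨1, one_ne_zero, by simpa using h, fun _ => ⟨1, locUnit_one, ?_⟩,
    fun _ => ⟨1, locUnit_one, ?_⟩⟩
  · rw [sub_self]; exact zero_mem_nonunits _
  · rw [sub_self]; exact zero_mem_nonunits _

theorem nf_of_locHyp (hϖ : Irreducible ϖ) (hB : Branches (K := K) ϖ x Vi V0) {t : F}
    (ht : t = x ∨ t = x⁻¹) {n : Ideal (CInt R K t)} (hn : IsClosedPt ϖ n) {m : ℕ}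
    (hm : m ≠ 0) {y : F} (hyi : y - 1 ∈ Vi.nonunits) (hy0 : y - 1 ∈ V0.nonunits)
    (h : LocHyp ϖ Vi V0 n m y) : NF Vi V0 n m y := by
  haveI := hn.max.isPrime
  rcases h with h | ⟨h1 | h1 | h1, h2⟩
  · exact nf_of_locUnit (locUnit_of_genUnit_one hϖ hB ht hn hyi hy0 h)
  · obtain ⟨c1, c2, π, hπ⟩ := h1
    exact nf_one_i hϖ hB ht hn c1 c2 hπ hm hyi h2
  · obtain ⟨c1, c2, π, hπ⟩ := h1
    exact nf_one_0 hϖ hB ht hn c1 c2 hπ hm hy0 h2
  · obtain ⟨c1, c2, hs⟩ := h1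
    exact nf_node hϖ hB ht hn c1 c2 hs hm hyi hy0 h2

end Fermat.Agent.S35
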