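import Fermat.Agent.S35.G.Unit

set_option autoImplicit false
set_option linter.unusedSectionVars false
set_option linter.style.haveILetI false

/-!
# S35 / G / NFOne : the normal form at a point lying on ONE branch   (task G-NFOne)

`nf_one_aux` is stated for a branch `V` (centred at `n`) and the other branch `V'` (not centred); `nf_one_i`, `nf_one_0` are the two instances.

SKETCH of `nf_one_aux`.  `LocPow`: `y = ε₀ * h₀ ^ m`, `ε₀` `GenUnit`, `h₀ ≠ 0`.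
 1. `hunif h₀`: `h₁ := ϖ ^ k * h₀` is a unit of `V`.   `ε₁ := y / h₁ ^ m = ε₀ * (ϖ ^ k)⁻¹ ^ m` is `GenUnit` (`genUnit_mul/zpow/pow/inv/unif`).
 2. `y` is a unit of `V` (`glueLoc_unit hy`), so `ε₁` is a unit of `V`; `V'` is not centred; so `ε₁` is `LocUnit` (hypothesis `hloc`, which is
    `locUnit_of_genUnit_centered` in the instances).
 3. `BranchDVR`: `h₁ ≡ π ^ j * a` mod `𝔪_V`, `a` `LocUnit`.  Then `1 ≡ y = ε₁ * h₁ ^ m ≡ ε₁ * (π ^ j * a) ^ m = π ^ (j * m) * (ε₁ * a ^ m)` (`vc_mul`, `vc_pow`; all factors are in `V`: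
    `π` is a unit of `V` since `InMax → InLoc → ∈ V` (`Centered.mem_of_inLoc`) and `π⁻¹ ∈ V`).   `zpow_eq_zero_of_cong` ⟹ `j * m = 0` ⟹ `j = 0` (`m ≠ 0`).
 4. So `h₁ ≡ a`: `NF`-data `h := h₁`.
-/

noncomputable section

namespace Fermat.Agent.S35

open Polynomial IntermediateField Fermat.Agent.S18 Fermat.Agent.S34

variable {R K F : Type} [CommRing R] [IsDomain R] [IsDiscreteValuationRing R] [Field K] [CharZero K]
  [Algebra R K] [IsFractionRing R K] [Field F] [Algebra K F]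
  {ϖ : R} {x : F} {Vi V0 : ValuationSubring F}

/-- the exponent of the uniformiser in `h` vanishes when `y = ε * h ^ m ≡ 1`. -/
theorem nf_exponent_zero {V : ValuationSubring F} {t : F} {n : Ideal (CInt R K t)}
    [n.IsPrime] (hV : ∀ y ∈ CInt R K t, y ∈ V) (hc : Centered V n) {π : F} (hπM : InMax n π)
    (hπV : π⁻¹ ∈ V) {m : ℕ} (hm : m ≠ 0) {y h a : F} (hy : y - 1 ∈ V.nonunits) (hh0 : h ≠ 0)
    (hε : LocUnit n (y / h ^ m)) (ha : LocUnit n a) {j : ℤ}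
    (hcong : h - π ^ j * a ∈ V.nonunits) : j = 0 := by
  have hπV0 : π ∈ V := hc.mem_of_inLoc hV hπM.inLoc
  have haV := (locUnit_mem hV hc ha).1
  have hπj := (vc_zpow_mem hπV0 hπV j).1
  have hεV := (locUnit_mem hV hc hε).1
  have h1 : h ^ m - (π ^ j * a) ^ m ∈ V.nonunits := vc_pow (mul_mem hπj haV) hcong m
  have h2 : y / h ^ m * h ^ m - y / h ^ m * (π ^ j * a) ^ m ∈ V.nonunits := by
    rw [← mul_sub]
    exact mul_mem_nonunits V hεV h1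
  rw [div_mul_cancel₀ _ (pow_ne_zero m hh0)] at h2
  have h3 : y / h ^ m * (π ^ j * a) ^ m - 1 ∈ V.nonunits := vc_trans (vc_symm h2) hy
  have e : y / h ^ m * (π ^ j * a) ^ m = π ^ (j * (m : ℤ)) * (y / h ^ m * a ^ m) := by
    rw [mul_pow, zpow_mul, zpow_natCast]; ring
  rw [e] at h3
  have hj := zpow_eq_zero_of_cong hV hc hπM (locUnit_mul hε (locUnit_pow ha m)) h3
  rcases mul_eq_zero.1 hj with h | h
  · exact h
  · exact absurd (by exact_mod_cast h) hm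

theorem nf_one_aux (hϖ : Irreducible ϖ) {V : ValuationSubring F} {t : F} {n : Ideal (CInt R K t)}
    [n.IsPrime] (hV : ∀ y ∈ CInt R K t, y ∈ V) (hc : Centered V n)
    (hunif : ∀ z : F, z ≠ 0 → ∃ k : ℤ, rE R K F ϖ ^ k * z ∈ V ∧ (rE R K F ϖ ^ k * z)⁻¹ ∈ V)
    (hloc : ∀ z : F, GenUnit ϖ n z → z ∈ V → z⁻¹ ∈ V → LocUnit n z)
    {π : F} (hπ : BranchDVR V n π) {m : ℕ} (hm : m ≠ 0) {y : F} (hy : y - 1 ∈ V.nonunits)
    (hpow : LocPow ϖ n m y) :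
    ∃ h : F, h ≠ 0 ∧ LocUnit n (y / h ^ m) ∧ RedUnit V n h := by
  obtain ⟨h₀, ε₀, hh₀, hε₀, hyeq⟩ := hpow
  obtain ⟨k, hk1, hk2⟩ := hunif h₀ hh₀
  have hP0 : rE R K F ϖ ^ k ≠ 0 := zpow_ne_zero _ (unit_unif_ne_zero hϖ)
  set h₁ : F := rE R K F ϖ ^ k * h₀ with hh₁
  have hh₁0 : h₁ ≠ 0 := mul_ne_zero hP0 hh₀
  obtain ⟨hy0, hyV, hyV', -⟩ := glueLoc_unit hy
  have hε₁eq : y / h₁ ^ m = ε₀ * ((rE R K F ϖ ^ k) ^ m)⁻¹ := by
    rw [hyeq, hh₁, mul_pow]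
    field_simp
  have hgen : GenUnit ϖ n (y / h₁ ^ m) := by
    rw [hε₁eq]
    exact genUnit_mul hε₀ (genUnit_inv (genUnit_pow (genUnit_zpow (genUnit_unif hϖ) k) m))
  have hεV : y / h₁ ^ m ∈ V := by
    rw [div_eq_mul_inv, ← inv_pow]
    exact mul_mem hyV (pow_mem hk2 m)
  have hεV' : (y / h₁ ^ m)⁻¹ ∈ V := by
    rw [inv_div, div_eq_mul_inv]
    exact mul_mem (pow_mem hk1 m) hyV'
  have hε₁ : LocUnit n (y / h₁ ^ m) := hloc _ hgen hεV hεV'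
  obtain ⟨hπM, hπV, hdvr⟩ := hπ
  obtain ⟨j, a, ha, hcong⟩ := hdvr h₁ hh₁0 hk1 hk2
  have hj0 : j = 0 := nf_exponent_zero hV hc hπM hπV hm hy hh₁0 hε₁ ha hcong
  rw [hj0, zpow_zero, one_mul] at hcong
  exact ⟨h₁, hh₁0, hε₁, a, ha, hcong⟩

theorem nf_one_i (hϖ : Irreducible ϖ) (hB : Branches (K := K) ϖ x Vi V0) {t : F}
    (ht : t = x ∨ t = x⁻¹) {n : Ideal (CInt R K t)} (hn : IsClosedPt ϖ n)
    (hc : Centered Vi n) (hc' : ¬ Centered V0 n) {π : F} (hπ : BranchDVR Vi n π) {m : ℕ}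
    (hm : m ≠ 0) {y : F} (hy : y - 1 ∈ Vi.nonunits) (hpow : LocPow ϖ n m y) :
    NF Vi V0 n m y := by
  haveI := hn.max.isPrime
  obtain ⟨h, h0, h1, h2⟩ := nf_one_aux hϖ (chart_le_i hϖ hB ht) hc hB.unif_i
    (fun z hz h1 h2 => locUnit_of_genUnit_centered hϖ hB ht hn hz (fun _ => ⟨h1, h2⟩)
      (fun h => absurd h hc')) hπ hm hy hpow
  exact ⟨h, h0, h1, fun _ => h2, fun h => absurd h hc'⟩

theorem nf_one_0 (hϖ : Irreducible ϖ) (hB : Branches (K := K) ϖ x Vi V0) {t : F}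
    (ht : t = x ∨ t = x⁻¹) {n : Ideal (CInt R K t)} (hn : IsClosedPt ϖ n)
    (hc : Centered V0 n) (hc' : ¬ Centered Vi n) {π : F} (hπ : BranchDVR V0 n π) {m : ℕ}
    (hm : m ≠ 0) {y : F} (hy : y - 1 ∈ V0.nonunits) (hpow : LocPow ϖ n m y) :
    NF Vi V0 n m y := by
  haveI := hn.max.isPrime
  obtain ⟨h, h0, h1, h2⟩ := nf_one_aux hϖ (chart_le_0 hϖ hB ht) hc hB.unif_0
    (fun z hz h1 h2 => locUnit_of_genUnit_centered hϖ hB ht hn hz (fun h => absurd h hc')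
      (fun _ => ⟨h1, h2⟩)) hπ hm hy hpow
  exact ⟨h, h0, h1, fun h => absurd h hc', fun _ => h2⟩

end Fermat.Agent.S35
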