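import Fermat.Agent.S35.G.Unit

set_option autoImplicit false
set_option linter.unusedSectionVars false

/-!
# S35 / G / Transport : transport of closed points and local rings along an automorphism   (task G-Transport)

`s : F ≃+* F` with `s x = x`, `s R = R` (`ChartAut`).  It induces an automorphism of each chart `C = CInt R K t`; `pull hs ht n = {c : s c ∈ n}`.

SKETCHES.  `ChartAut.mem_CInt`: copy `S34.InertiaLike.mem_CInt` (`S34/T0.lean`: `t0_theta`, `t0_comp`; they only use `map_x`, `map_R`).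
`ChartAut.symm`: immediate.  `pull_isClosedPt`: `chartHom` is bijective (inverse = `chartHom` of `hs.symm`), so the comap of a maximal ideal is maximal
(`Ideal.comap_isMaximal_of_surjective`); `s ϖ = rE r'` with `ϖ ∣ r'` (`S34.t0_dvd_of_map` / `t0_map_unif` technique: if `r'` were a unit, `ϖ` would be one, apply `s.symm`), so `unifC ∈ pull`.
`inLoc_map`: `d ∉ pull n`, `d z ∈ C` ⟹ `s d ∉ n`, `s d * s z ∈ C`.   `centered_pull`: `c ∈ C ∩ 𝔪_V` ⟹ `s c ∈ C ∩ 𝔪_V` (`vc_map_nonunits`) ⟹ `s c ∈ n`.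
`FrobLike.pull_eq`: `c ∈ pull n ↔ s c ∈ n ↔ c ^ Q ∈ n` (as `s c - c ^ Q` is `InMax n` and lies in `C`, it lies in `n`: `d (s c - c^Q) ∈ n`, `d ∉ n`, `n` prime) `↔ c ∈ n` (`Q ≠ 0`).
`FrobLike.inMax_sub_pow`: `a = c / d` (`inLoc_iff_exists_div`), `s a - a ^ Q = ((s c - c ^ Q) * d ^ Q - c ^ Q * (s d - d ^ Q)) / (s d * d ^ Q)`; `s d ∉ n` by `pull_eq`.
-/

noncomputable section

namespace Fermat.Agent.S35

open Polynomial IntermediateField Fermat.Agent.S18 Fermat.Agent.S34

section defs
variable (R K : Type) {F : Type} [CommRing R] [Field K] [Algebra R K] [Field F] [Algebra K F]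

/-- an automorphism of `F` fixing `x` and preserving `R`. -/
structure ChartAut (x : F) (s : F ≃+* F) : Prop where
  map_x : s x = x
  map_R : ∀ r : R, ∃ r' : R, s (rE R K F r) = rE R K F r'
  map_R_symm : ∀ r : R, ∃ r' : R, s.symm (rE R K F r) = rE R K F r'

end defs

variable {R K F : Type} [CommRing R] [IsDomain R] [IsDiscreteValuationRing R] [Field K] [CharZero K]
  [Algebra R K] [IsFractionRing R K] [Field F] [Algebra K F]
  {ϖ : R} {x : F} {Vi V0 : ValuationSubring F}

theorem FrobLike.chartAut {Q : ℕ} {s : F ≃+* F} (hs : FrobLike (K := K) ϖ x Vi V0 Q s) :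
    ChartAut R K x s :=
  ⟨hs.map_x, hs.map_R, hs.map_R_symm⟩

theorem ChartAut.symm {s : F ≃+* F} (hs : ChartAut R K x s) : ChartAut R K x s.symm :=
  ⟨by rw [RingEquiv.symm_apply_eq, hs.map_x], hs.map_R_symm, by simpa using hs.map_R⟩

theorem ChartAut.trans {s s' : F ≃+* F} (hs : ChartAut R K x s) (hs' : ChartAut R K x s') :
    ChartAut R K x (s.trans s') := by
  refine ⟨by rw [RingEquiv.trans_apply, hs.map_x, hs'.map_x], fun r => ?_, fun r => ?_⟩
  · obtain ⟨r', h⟩ := hs.map_R r
    obtain ⟨r'', h'⟩ := hs'.map_R r'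
    exact ⟨r'', by rw [RingEquiv.trans_apply, h, h']⟩
  · obtain ⟨r', h⟩ := hs'.map_R_symm r
    obtain ⟨r'', h'⟩ := hs.map_R_symm r'
    exact ⟨r'', by rw [RingEquiv.symm_trans_apply, h, h']⟩

theorem ChartAut.map_t {s : F ≃+* F} (hs : ChartAut R K x s) {t : F} (ht : t = x ∨ t = x⁻¹) :
    s t = t := by
  rcases ht with rfl | rfl
  · exact hs.map_x
  · rw [map_inv₀, hs.map_x]

/-- the endomorphism of `R` induced by `s`. -/
def transport_theta {s : F ≃+* F} (hs : ChartAut R K x s) : R →+* R where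
  toFun r := Classical.choose (hs.map_R r)
  map_one' := by
    apply rE_injective (K := K) (E := F)
    rw [← Classical.choose_spec (hs.map_R 1), map_one, map_one]
  map_mul' a b := by
    apply rE_injective (K := K) (E := F)
    rw [← Classical.choose_spec (hs.map_R (a * b)), map_mul, map_mul, map_mul,
      ← Classical.choose_spec (hs.map_R a), ← Classical.choose_spec (hs.map_R b)]
  map_zero' := by
    apply rE_injective (K := K) (E := F)
    rw [← Classical.choose_spec (hs.map_R 0), map_zero, map_zero]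
  map_add' a b := by
    apply rE_injective (K := K) (E := F)
    rw [← Classical.choose_spec (hs.map_R (a + b)), map_add, map_add, map_add,
      ← Classical.choose_spec (hs.map_R a), ← Classical.choose_spec (hs.map_R b)]

theorem transport_theta_spec {s : F ≃+* F} (hs : ChartAut R K x s) (r : R) :
    rE R K F (transport_theta hs r) = s (rE R K F r) :=
  (Classical.choose_spec (hs.map_R r)).symm

theorem transport_comp {s : F ≃+* F} (hs : ChartAut R K x s) {t : F}
    (ht : t = x ∨ t = x⁻¹) :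
    (evR R K t).comp (Polynomial.mapRingHom (transport_theta hs)) =
      (s : F →+* F).comp (evR R K t) := by
  apply Polynomial.ringHom_ext
  · intro a
    simp only [RingHom.comp_apply, Polynomial.coe_mapRingHom, Polynomial.map_C, evR,
      Polynomial.coe_eval₂RingHom, Polynomial.eval₂_C]
    exact transport_theta_spec hs a
  · simp only [RingHom.comp_apply, Polynomial.coe_mapRingHom, Polynomial.map_X, evR,
      Polynomial.coe_eval₂RingHom, Polynomial.eval₂_X]
    exact (hs.map_t ht).symm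

theorem ChartAut.mem_CInt {s : F ≃+* F} (hs : ChartAut R K x s) {t : F} (ht : t = x ∨ t = x⁻¹)
    {z : F} (hz : z ∈ CInt R K t) : s z ∈ CInt R K t := by
  obtain ⟨p, hp, hpz⟩ := hz
  refine ⟨p.map (Polynomial.mapRingHom (transport_theta hs)), hp.map _, ?_⟩
  rw [Polynomial.eval₂_map, transport_comp hs ht]
  have := Polynomial.hom_eval₂ p (evR R K t) (s : F →+* F) z
  rw [hpz, map_zero] at this
  exact this.symm

/-- the endomorphism of the chart induced by `s`. -/
def chartHom {s : F ≃+* F} (hs : ChartAut R K x s) {t : F} (ht : t = x ∨ t = x⁻¹) :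
    CInt R K t →+* CInt R K t :=
  (s : F →+* F).restrict (CInt R K t) (CInt R K t) (fun _ hz => hs.mem_CInt ht hz)

@[simp] theorem coe_chartHom {s : F ≃+* F} (hs : ChartAut R K x s) {t : F} (ht : t = x ∨ t = x⁻¹)
    (c : CInt R K t) : ((chartHom hs ht c : CInt R K t) : F) = s (c : F) := rfl

theorem chartHom_bijective {s : F ≃+* F} (hs : ChartAut R K x s) {t : F} (ht : t = x ∨ t = x⁻¹) :
    Function.Bijective (chartHom hs ht) := by
  constructor
  · intro a b h
    apply Subtype.ext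
    apply s.injective
    exact congrArg Subtype.val h
  · intro c
    refine ⟨chartHom hs.symm ht c, ?_⟩
    apply Subtype.ext
    rw [coe_chartHom, coe_chartHom, RingEquiv.apply_symm_apply]

/-- `s⁻¹ n`. -/
def pull {s : F ≃+* F} (hs : ChartAut R K x s) {t : F} (ht : t = x ∨ t = x⁻¹)
    (n : Ideal (CInt R K t)) : Ideal (CInt R K t) :=
  n.comap (chartHom hs ht)

theorem mem_pull {s : F ≃+* F} (hs : ChartAut R K x s) {t : F} (ht : t = x ∨ t = x⁻¹)
    {n : Ideal (CInt R K t)} {c : CInt R K t} : c ∈ pull hs ht n ↔ chartHom hs ht c ∈ n :=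
  Iff.rfl

theorem pull_isClosedPt (hϖ : Irreducible ϖ) {s : F ≃+* F} (hs : ChartAut R K x s) {t : F}
    (ht : t = x ∨ t = x⁻¹) {n : Ideal (CInt R K t)} (hn : IsClosedPt ϖ n) :
    IsClosedPt ϖ (pull hs ht n) := by
  have := hn.max
  refine ⟨Ideal.comap_isMaximal_of_surjective _ (chartHom_bijective hs ht).2, ?_⟩
  rw [mem_pull]
  obtain ⟨r', hr'⟩ := hs.map_R ϖ
  obtain ⟨a, rfl⟩ := t0_dvd_of_map hϖ s hs.map_R_symm hr'
  have : chartHom hs ht (unifC t ϖ) = unifC t ϖ * ⟨rE R K F a, rE_mem_CInt t a⟩ := by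
    apply Subtype.ext
    rw [coe_chartHom]
    show s (rE R K F ϖ) = rE R K F ϖ * rE R K F a
    rw [hr', map_mul]
  rw [this]
  exact n.mul_mem_right _ hn.mem

theorem inLoc_map {s : F ≃+* F} (hs : ChartAut R K x s) {t : F} (ht : t = x ∨ t = x⁻¹)
    {n : Ideal (CInt R K t)} {z : F} (hz : InLoc (pull hs ht n) z) : InLoc n (s z) := by
  obtain ⟨d, hd, h⟩ := hz
  refine ⟨chartHom hs ht d, hd, ?_⟩
  rw [coe_chartHom, ← map_mul]
  exact hs.mem_CInt ht h

theorem inMax_map {s : F ≃+* F} (hs : ChartAut R K x s) {t : F} (ht : t = x ∨ t = x⁻¹)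
    {n : Ideal (CInt R K t)} {z : F} (hz : InMax (pull hs ht n) z) : InMax n (s z) := by
  obtain ⟨d, hd, w, hw, h⟩ := hz
  refine ⟨chartHom hs ht d, hd, chartHom hs ht w, hw, ?_⟩
  rw [coe_chartHom, coe_chartHom, ← map_mul, h]

theorem locUnit_map {s : F ≃+* F} (hs : ChartAut R K x s) {t : F} (ht : t = x ∨ t = x⁻¹)
    {n : Ideal (CInt R K t)} {z : F} (hz : LocUnit (pull hs ht n) z) : LocUnit n (s z) :=
  ⟨(map_ne_zero_iff s s.injective).2 hz.1, inLoc_map hs ht hz.2.1, by
    rw [← map_inv₀]; exact inLoc_map hs ht hz.2.2⟩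

theorem centered_pull {s : F ≃+* F} (hs : ChartAut R K x s) {t : F} (ht : t = x ∨ t = x⁻¹)
    {n : Ideal (CInt R K t)} {V : ValuationSubring F} (hV : ∀ z : F, s z ∈ V ↔ z ∈ V) :
    Centered V (pull hs ht n) ↔ Centered V n := by
  constructor
  · intro h c hc
    obtain ⟨c', rfl⟩ := (chartHom_bijective hs ht).2 c
    rw [coe_chartHom, vc_map_nonunits hV] at hc
    exact h c' hc
  · intro h c hc
    rw [mem_pull]
    apply h
    rw [coe_chartHom, vc_map_nonunits hV]
    exact hc

theorem redUnit_map {s : F ≃+* F} (hs : ChartAut R K x s) {t : F} (ht : t = x ∨ t = x⁻¹)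
    {n : Ideal (CInt R K t)} {V : ValuationSubring F} (hV : ∀ z : F, s z ∈ V ↔ z ∈ V) {h : F}
    (hh : RedUnit V (pull hs ht n) h) : RedUnit V n (s h) := by
  obtain ⟨a, ha, h1⟩ := hh
  refine ⟨s a, locUnit_map hs ht ha, ?_⟩
  rw [← map_sub, vc_map_nonunits hV]
  exact h1

/-- an element of the chart which is in the maximal ideal of the local ring lies in `n`. -/
theorem transport_mem_of_inMax {t : F} {n : Ideal (CInt R K t)} [hn : n.IsPrime] {c : CInt R K t}
    (h : InMax n (c : F)) : c ∈ n := by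
  obtain ⟨d, hd, w, hw, e⟩ := h
  have : d * c = w := Subtype.ext (by rw [Subring.coe_mul, e])
  exact (hn.mem_or_mem (this ▸ hw)).resolve_left hd

/-- at a point on both branches, `s` fixes the point. -/
theorem FrobLike.pull_eq {Q : ℕ} (hQ : Q ≠ 0) {s : F ≃+* F}
    (hs : FrobLike (K := K) ϖ x Vi V0 Q s) {t : F} (ht : t = x ∨ t = x⁻¹)
    {n : Ideal (CInt R K t)} (hn : IsClosedPt ϖ n) (hci : Centered Vi n) (hc0 : Centered V0 n) :
    pull hs.chartAut ht n = n := by
  have hp := hn.max.isPrime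
  ext c
  rw [mem_pull]
  have h1 : chartHom hs.chartAut ht c - c ^ Q ∈ n :=
    transport_mem_of_inMax (hs.node t ht n hn hci hc0 c)
  constructor
  · intro h
    have h2 := n.sub_mem h h1
    rw [sub_sub_cancel] at h2
    exact hp.mem_of_pow_mem Q h2
  · intro h
    have h2 := n.add_mem h1 (n.pow_mem_of_mem h Q (Nat.pos_of_ne_zero hQ))
    rwa [sub_add_cancel] at h2

/-- at a point on both branches, `s a ≡ a ^ Q` modulo the maximal ideal, for `a` in the local ring. -/
theorem FrobLike.inMax_sub_pow {Q : ℕ} (hQ : Q ≠ 0) {s : F ≃+* F}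
    (hs : FrobLike (K := K) ϖ x Vi V0 Q s) {t : F} (ht : t = x ∨ t = x⁻¹)
    {n : Ideal (CInt R K t)} (hn : IsClosedPt ϖ n) (hci : Centered Vi n) (hc0 : Centered V0 n)
    {a : F} (ha : InLoc n a) : InMax n (s a - a ^ Q) := by
  have hp := hn.max.isPrime
  obtain ⟨c, d, hd, rfl⟩ := inLoc_iff_exists_div.1 ha
  have hsd : chartHom hs.chartAut ht d ∉ n := by
    intro h
    apply hd
    rw [← hs.pull_eq hQ ht hn hci hc0]
    exact h
  have u1 := locUnit_of_notMem hsd
  have u2 := locUnit_pow (locUnit_of_notMem hd) Q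
  rw [coe_chartHom] at u1
  have e : s ((c : F) / (d : F)) - ((c : F) / (d : F)) ^ Q =
      ((s (c : F) - (c : F) ^ Q) * (d : F) ^ Q - (c : F) ^ Q * (s (d : F) - (d : F) ^ Q)) *
        (s (d : F) * (d : F) ^ Q)⁻¹ := by
    have h1 := u1.1
    have h2 := u2.1
    rw [map_div₀, div_pow]
    field_simp
    ring
  rw [e]
  refine inMax_mul_right (inMax_sub (inMax_mul_right (hs.node t ht n hn hci hc0 c) u2.2.1)
    (InMax.mul_left ((InLoc.of_mem n c.2).pow Q) (hs.node t ht n hn hci hc0 d)))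
    (locUnit_inv (locUnit_mul u1 u2)).2.1

end Fermat.Agent.S35
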