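import Fermat.Agent.S35.G.Defs

set_option autoImplicit false

/-!
# S35 / G / VC : congruences modulo the maximal ideal of a valuation subring   (task G-VC)

Pure `ValuationSubring` API (on top of `S18/AT/Val.lean`, `S34.glueLoc_unit`).  `a ≡ b` means `a - b ∈ V.nonunits`.  All proofs are 3-10 lines.
-/

noncomputable section

namespace Fermat.Agent.S35

open Fermat.Agent.S18 Fermat.Agent.S34

variable {F : Type} [Field F] {V : ValuationSubring F}

theorem vc_symm {a b : F} (h : a - b ∈ V.nonunits) : b - a ∈ V.nonunits := by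
  have := neg_mem_nonunits V h
  rwa [neg_sub] at this

theorem vc_trans {a b c : F} (h : a - b ∈ V.nonunits) (h' : b - c ∈ V.nonunits) :
    a - c ∈ V.nonunits := by
  have := add_mem_nonunits V h h'
  rwa [sub_add_sub_cancel] at this

/-- `a ≡ b`, `b ∈ V` ⟹ `a ∈ V`. -/
theorem vc_mem {a b : F} (hb : b ∈ V) (h : a - b ∈ V.nonunits) : a ∈ V := by
  have := add_mem (mem_of_mem_nonunits V h) hb
  rwa [sub_add_cancel] at this

/-- a unit of `V` is not in the maximal ideal. -/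
theorem vc_not_nonunits {a : F} (ha0 : a ≠ 0) (ha' : a⁻¹ ∈ V) : a ∉ V.nonunits := by
  intro h
  have := mul_mem_nonunits V ha' h
  rw [inv_mul_cancel₀ ha0] at this
  exact one_notMem_nonunits V this

/-- `a ≡ b`, `b` a unit of `V` ⟹ `a` a unit of `V`. -/
theorem vc_unit {a b : F} (hb0 : b ≠ 0) (hb : b ∈ V) (hb' : b⁻¹ ∈ V) (h : a - b ∈ V.nonunits) :
    a ≠ 0 ∧ a ∈ V ∧ a⁻¹ ∈ V := by
  have h1 := vc_mem hb h
  have h2 : a ∉ V.nonunits := by
    intro h3
    have := sub_mem_nonunits V h3 h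
    rw [sub_sub_cancel] at this
    exact vc_not_nonunits hb0 hb' this
  exact ⟨fun h0 => h2 (h0 ▸ zero_mem_nonunits V), h1, inv_mem_of_notMem_nonunits V h1 h2⟩

theorem vc_mul {a a' b b' : F} (ha' : a' ∈ V) (hb : b ∈ V) (h1 : a - a' ∈ V.nonunits)
    (h2 : b - b' ∈ V.nonunits) : a * b - a' * b' ∈ V.nonunits := by
  have e : a * b - a' * b' = (a - a') * b + a' * (b - b') := by ring
  rw [e]
  exact add_mem_nonunits V (mul_mem_nonunits' V h1 hb) (mul_mem_nonunits V ha' h2)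

theorem vc_pow {a b : F} (hb : b ∈ V) (h : a - b ∈ V.nonunits) (k : ℕ) :
    a ^ k - b ^ k ∈ V.nonunits := by
  induction k with
  | zero => rw [pow_zero, pow_zero, sub_self]; exact zero_mem_nonunits V
  | succ k ih =>
    rw [pow_succ, pow_succ]
    exact vc_mul (pow_mem hb k) (vc_mem hb h) ih h

theorem vc_inv {a b : F} (hb0 : b ≠ 0) (hb : b ∈ V) (hb' : b⁻¹ ∈ V) (h : a - b ∈ V.nonunits) :
    a⁻¹ - b⁻¹ ∈ V.nonunits := by
  obtain ⟨ha0, -, ha'⟩ := vc_unit hb0 hb hb' h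
  have e : a⁻¹ - b⁻¹ = a⁻¹ * b⁻¹ * (b - a) := by field_simp
  rw [e]
  exact mul_mem_nonunits V (mul_mem ha' hb') (vc_symm h)

theorem vc_div {a a' b b' : F} (ha' : a' ∈ V) (hb0 : b' ≠ 0) (hb : b' ∈ V) (hb' : b'⁻¹ ∈ V)
    (h1 : a - a' ∈ V.nonunits) (h2 : b - b' ∈ V.nonunits) : a / b - a' / b' ∈ V.nonunits := by
  rw [div_eq_mul_inv, div_eq_mul_inv]
  exact vc_mul ha' (vc_unit hb0 hb hb' h2).2.2 h1 (vc_inv hb0 hb hb' h2)

/-- units of `V` are closed under integer powers. -/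
theorem vc_zpow_mem {a : F} (ha : a ∈ V) (ha' : a⁻¹ ∈ V) (j : ℤ) : a ^ j ∈ V ∧ (a ^ j)⁻¹ ∈ V := by
  cases j with
  | ofNat k =>
    rw [Int.ofNat_eq_natCast, zpow_natCast, ← inv_pow]
    exact ⟨pow_mem ha k, pow_mem ha' k⟩
  | negSucc k =>
    rw [zpow_negSucc, inv_inv, ← inv_pow]
    exact ⟨pow_mem ha' _, pow_mem ha _⟩

/-- `a ^ k` unit of `V`, `k ≠ 0` ⟹ `a` unit of `V`. -/
theorem vc_unit_of_pow {a : F} {k : ℕ} (hk : k ≠ 0) (h : a ^ k ∈ V) (h' : (a ^ k)⁻¹ ∈ V) :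
    a ∈ V ∧ a⁻¹ ∈ V := by
  rw [← inv_pow] at h'
  exact ⟨mem_of_pow_mem V hk h, mem_of_pow_mem V hk h'⟩

/-- either `a ∈ 𝔪`, or `a⁻¹ ∈ 𝔪`, or `a` is a unit. -/
theorem vc_trichotomy (V : ValuationSubring F) (a : F) :
    a ∈ V.nonunits ∨ a⁻¹ ∈ V.nonunits ∨ (a ∈ V ∧ a⁻¹ ∈ V) := by
  by_cases h1 : a ∈ V.nonunits
  · exact Or.inl h1
  by_cases h2 : a⁻¹ ∈ V.nonunits
  · exact Or.inr (Or.inl h2)
  refine Or.inr (Or.inr ?_)
  rcases V.mem_or_inv_mem a with h | h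
  · exact ⟨h, inv_mem_of_notMem_nonunits V h h1⟩
  · have := inv_mem_of_notMem_nonunits V h h2
    rw [inv_inv] at this
    exact ⟨this, h⟩

/-- a ring automorphism preserving `V` preserves its maximal ideal. -/
theorem vc_map_nonunits {s : F ≃+* F} (hs : ∀ z : F, s z ∈ V ↔ z ∈ V) {z : F} :
    s z ∈ V.nonunits ↔ z ∈ V.nonunits := by
  have key : ∀ y : F, y ∈ V.nonunits ↔ (y = 0 ∨ y⁻¹ ∉ V) := by
    intro y
    constructor
    · intro h
      by_cases hy : y = 0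
      · exact Or.inl hy
      · exact Or.inr fun h' => vc_not_nonunits hy h' h
    · rintro (rfl | h)
      · exact zero_mem_nonunits V
      · by_contra h1
        rcases V.mem_or_inv_mem y with h2 | h2
        · exact h (inv_mem_of_notMem_nonunits V h2 h1)
        · exact h h2
  rw [key, key, ← map_inv₀, hs, map_eq_zero_iff s s.injective]

end Fermat.Agent.S35
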