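import Fermat.Agent.S34.V2.TwoGal
import Fermat.Agent.GES.TwistC
import Fermat.Agent.S35.G.VC

set_option autoImplicit false
set_option linter.unusedSectionVars false

/-!
# S35 / G / Twist : `∏_i f(ζ^i t) ≡ (σ f)(t^q)` for the Gauss valuation

`z : Rˣ` with `z ≡ 1` modulo the maximal ideal (e.g. `z ^ q = 1`, residue characteristic `q`), `ζ` its image in `K`.
-/

noncomputable section

namespace Fermat.Agent.S35

open ModularCurve Fermat.Agent.S18 Fermat.Agent.S18.V Fermat.Agent.S34 Fermat.Agent.S34.V2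

variable {R K : Type} [CommRing R] [IsDomain R] [IsDiscreteValuationRing R] [Field K]
  [Algebra R K] [IsFractionRing R K]

/-- the image of a unit of `R` in `K`. -/
abbrev uK (z : Rˣ) : Kˣ := Units.map (algebraMap R K : R →* K) z

theorem twist_cR (z : Rˣ) (α : LaurentSeries R) :
    S28.twist (uK (K := K) z) (cR R K α) = cR R K (S28.twist z α) :=
  (S28.coeffMap_twist (algebraMap R K) z α).symm

theorem twist_prim (z : Rˣ) {α : LaurentSeries R} (h : Prim α) : Prim (S28.twist z α) := by
  obtain ⟨n, hn⟩ := h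
  exact ⟨n, by rw [S28.twist_coeff]; exact (Units.isUnit _).mul hn⟩

theorem twist_redR (z : Rˣ) (hz : ¬ IsUnit ((z : R) - 1)) (α : LaurentSeries R) :
    Gauss.redR R (S28.twist z α) = Gauss.redR R α := by
  rw [S28.coeffMap_twist]
  have : Units.map (IsLocalRing.residue R : R →* IsLocalRing.ResidueField R) z = 1 := by
    apply Units.ext
    rw [Units.coe_map, Units.val_one]
    show IsLocalRing.residue R (z : R) = 1
    have h1 : IsLocalRing.residue R ((z : R) - 1) = 0 :=
      (IsLocalRing.residue_eq_zero_iff _).2 ((IsLocalRing.mem_maximalIdeal _).2 hz)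
    rw [map_sub, map_one, sub_eq_zero] at h1
    exact h1
  rw [this, GES.twist_one']

theorem twist_inQF (z : Rˣ) {f : LaurentSeries K} (hf : InQF R f) :
    InQF R (S28.twist (uK (K := K) z) f) := by
  obtain ⟨α, β, hβ, e⟩ := hf
  refine ⟨S28.twist z α, S28.twist z β, fun h => hβ (S28.twist_injective z (by rw [h, map_zero])), ?_⟩
  rw [← twist_cR, ← twist_cR, ← map_mul, e]

/-- `f(z t) ≡ f(t)`. -/
theorem twist_sub_mem (z : Rˣ) (hz : ¬ IsUnit ((z : R) - 1)) {f : LaurentSeries K}
    (hf : InQF R f) (h : f ∈ gaussL R K) :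
    S28.twist (uK (K := K) z) f - f ∈ (gaussL R K).nonunits := by
  have := Frob.congr_aux 1 (S28.twist (uK (K := K) z)) (S28.twist z) (twist_cR z)
    (fun α hα => twist_prim z hα) (fun α => by rw [twist_redR z hz, pow_one]) hf h
  rwa [pow_one] at this

theorem twist_pow_sub_one (z : Rˣ) (hz : ¬ IsUnit ((z : R) - 1)) (i : ℕ) :
    ¬ IsUnit (((z ^ i : Rˣ) : R) - 1) := by
  intro h
  apply hz
  rw [Units.val_pow_eq_pow_val] at h
  obtain ⟨c, hc⟩ := sub_dvd_pow_sub_pow (z : R) 1 i
  rw [one_pow] at hc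
  rw [hc] at h
  exact isUnit_of_mul_isUnit_left h

/-- product of congruences. -/
theorem twist_prod_cong {L : Type} [Field L] {V : ValuationSubring L} {ι : Type} (s : Finset ι)
    (g : ι → L) {f : L} (hf : f ∈ V) (h : ∀ i ∈ s, g i - f ∈ V.nonunits) :
    ∏ i ∈ s, g i - f ^ s.card ∈ V.nonunits := by
  classical
  induction s using Finset.induction_on with
  | empty => simpa using zero_mem_nonunits V
  | insert a s ha ih =>
    rw [Finset.prod_insert ha, Finset.card_insert_of_notMem ha, pow_succ']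
    have h1 := ih fun i hi => h i (Finset.mem_insert_of_mem hi)
    exact vc_mul hf (vc_mem (pow_mem hf _) h1) (h a (Finset.mem_insert_self _ _)) h1

/-- `∏_i f(z^i t) ≡ f(t)^q`. -/
theorem twist_prod_sub_pow (z : Rˣ) (hz : ¬ IsUnit ((z : R) - 1)) (q : ℕ) {f : LaurentSeries K}
    (hf : InQF R f) (h : f ∈ gaussL R K) :
    ∏ i : Fin q, S28.twist (uK (K := K) z ^ (i : ℕ)) f - f ^ q ∈ (gaussL R K).nonunits := by
  have := twist_prod_cong (V := gaussL R K) Finset.univ
    (fun i : Fin q => S28.twist (uK (K := K) z ^ (i : ℕ)) f) h (fun i _ => by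
      have e : uK (K := K) z ^ (i : ℕ) = uK (K := K) (z ^ (i : ℕ)) := (map_pow _ _ _).symm
      rw [e]
      exact twist_sub_mem _ (twist_pow_sub_one z hz i) hf h)
  rwa [Finset.card_univ, Fintype.card_fin] at this

/-- **the multiplicative congruence**: `∏_i u(z^i t) / (σ u)(t^q) ≡ 1` for a Gauss unit `u`. -/
theorem twist_prod_div (q : ℕ) [NeZero q] (hq : q.Prime) (hqR : ¬ IsUnit (q : R)) (σ : K →+* K)
    (σR : R ≃+* R) (hσ : ∀ r, σ (algebraMap R K r) = algebraMap R K (σR r))
    (hF : ∀ r, ¬ IsUnit (σR r - r ^ q)) (z : Rˣ) (hz : ¬ IsUnit ((z : R) - 1))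
    {u : LaurentSeries K} (hu : InQF R u) (hu0 : u ≠ 0) (h : u ∈ gaussL R K)
    (h' : u⁻¹ ∈ gaussL R K) :
    (∏ i : Fin q, S28.twist (uK (K := K) z ^ (i : ℕ)) u) / qExpand K q (coeffMap σ u) - 1 ∈
      (gaussL R K).nonunits := by
  have h1 := twist_prod_sub_pow z hz q hu h
  have h2 := frob_congr q hq hqR σ σR hσ hF hu h
  have h3 := vc_trans h1 (vc_symm h2)
  obtain ⟨a0, -, a2⟩ := vc_unit (pow_ne_zero q hu0) (pow_mem h q)
    (by rw [← inv_pow]; exact pow_mem h' q) h2
  have e : (∏ i : Fin q, S28.twist (uK (K := K) z ^ (i : ℕ)) u) / qExpand K q (coeffMap σ u) - 1 =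
      (qExpand K q (coeffMap σ u))⁻¹ *
        (∏ i : Fin q, S28.twist (uK (K := K) z ^ (i : ℕ)) u - qExpand K q (coeffMap σ u)) := by
    field_simp
  rw [e]
  exact mul_mem_nonunits _ a2 h3

/-! ### constants -/

theorem twist_algebraMap (u : Kˣ) (c : K) :
    S28.twist u (algebraMap K (LaurentSeries K) c) = algebraMap K (LaurentSeries K) c := by
  ext n
  rw [S28.twist_coeff, algebraMap_laurentSeries_eq_single]
  by_cases hn : n = 0
  · subst hn; simp
  · rw [HahnSeries.coeff_single_of_ne hn, mul_zero]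

theorem qExpand_algebraMap' (d : ℕ) [NeZero d] (c : K) :
    qExpand K d (algebraMap K (LaurentSeries K) c) = algebraMap K (LaurentSeries K) c := by
  rw [algebraMap_laurentSeries_eq_single, qExpand_single, mul_zero]

theorem coeffMap_algebraMap' (σ : K →+* K) (c : K) :
    coeffMap σ (algebraMap K (LaurentSeries K) c) = algebraMap K (LaurentSeries K) (σ c) := by
  rw [algebraMap_laurentSeries_eq_single, coeffMap_single, algebraMap_laurentSeries_eq_single]

end Fermat.Agent.S35
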