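import Fermat.Agent.S35.G.VC

set_option autoImplicit false
set_option linter.unusedSectionVars false

/-!
# S35 / G / Unit : API for `InMax`, `LocUnit`, `GenUnit`   (task G-Unit)

Everything is elementary on top of `S34/Loc.lean` (`InLoc.add/mul/neg/sub/pow`, `InMax.add/mul_left/inLoc`, `LocUnit.of_not_inMax`, `not_inMax_one`,
`LocUnit.one_add`, `Branches.sat_loc`, `Branches.locUnit_of_genUnit`, `Branches.div_mem_i/0`, `Branches.mem_of_mem_CInt`, `Centered.mem_of_inLoc`).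

SKETCHES of the three non-trivial ones.
* `inMax_of_nonunits`: `d ∉ n`, `d z = c ∈ C`; `c ∈ 𝔪_V` (as `d ∈ V`), so `c ∈ n` by `Centered`.
* `locUnit_of_genUnit_centered`: by `Branches.centered_or` at least one branch is centred.  If both are: `Branches.locUnit_of_genUnit`.  If `V` is centred and `V'` is not:
  there is `d ∈ C`, `d ∈ 𝔪_{V'}`, `d ∉ n`.  Claim: for `w ∈ {z, z⁻¹}` there is `L` with `d ^ L * w ∈ V'` [by `unif`: `ϖ ^ l * w =: e` is a unit of `V'` for some `l : ℤ`;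
  if `l ≤ 0`, `w = ϖ ^ (-l) e ∈ V'`, `L = 0`; if `l > 0`, `d ^ l * w = (ϖ⁻¹ d) ^ l * e ∈ V'` by `Branches.div_mem_*`].  `d ^ L * w ∈ V` too, `ϖ ^ k * (d ^ L * w)` is `InLoc`; so
  `d ^ L * w` is `InLoc` by `sat_loc`, and `w` is `InLoc` because `d ^ L ∉ n` (unfold `InLoc`: `d' * (d ^ L * w) ∈ C` with `d' ∉ n`, take `d' * d ^ L`).
* `zpow_eq_zero_of_cong`: if `j > 0`: `π ^ j * b` is `InMax`; `π ^ j * b - 1` is `InLoc` and in `𝔪_V`, hence `InMax` (`inMax_of_nonunits`); so `1` is `InMax`: contradiction with `not_inMax_one`.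
  If `j < 0`: `(π ^ j * b)⁻¹ = π ^ (-j) * b⁻¹ ≡ 1` too (`glueLoc_unit`), same argument.
-/

noncomputable section

namespace Fermat.Agent.S35

open Polynomial IntermediateField Fermat.Agent.S18 Fermat.Agent.S34

variable {R K F : Type} [CommRing R] [IsDomain R] [IsDiscreteValuationRing R] [Field K] [CharZero K]
  [Algebra R K] [IsFractionRing R K] [Field F] [Algebra K F]
  {ϖ : R} {x : F} {Vi V0 : ValuationSubring F}

section basic

variable {t : F} {n : Ideal (CInt R K t)} [n.IsPrime]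

theorem inMax_zero : InMax n (0 : F) :=
  ⟨1, loc_one_notMem n, 0, n.zero_mem, by simp⟩

theorem inLoc_one : InLoc n (1 : F) := InLoc.of_mem n (CInt R K t).one_mem

theorem inMax_neg {z : F} (hz : InMax n z) : InMax n (-z) := by
  have := InMax.mul_left (inLoc_one (n := n)).neg hz
  rwa [neg_one_mul] at this

theorem inMax_sub {y z : F} (hy : InMax n y) (hz : InMax n z) : InMax n (y - z) := by
  rw [sub_eq_add_neg]
  exact hy.add (inMax_neg hz)

theorem inMax_mul_right {y z : F} (hy : InMax n y) (hz : InLoc n z) : InMax n (y * z) := by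
  rw [mul_comm]
  exact InMax.mul_left hz hy

theorem inMax_pow {z : F} (hz : InMax n z) {k : ℕ} (hk : k ≠ 0) : InMax n (z ^ k) := by
  obtain ⟨j, rfl⟩ := Nat.exists_eq_succ_of_ne_zero hk
  rw [Nat.succ_eq_add_one, pow_succ]
  exact InMax.mul_left (hz.inLoc.pow j) hz

theorem locUnit_one : LocUnit n (1 : F) :=
  ⟨one_ne_zero, inLoc_one, by rw [inv_one]; exact inLoc_one⟩

theorem locUnit_mul {a b : F} (ha : LocUnit n a) (hb : LocUnit n b) : LocUnit n (a * b) :=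
  ⟨mul_ne_zero ha.1 hb.1, ha.2.1.mul hb.2.1, by rw [mul_inv]; exact ha.2.2.mul hb.2.2⟩

theorem locUnit_inv {a : F} (ha : LocUnit n a) : LocUnit n a⁻¹ :=
  ⟨inv_ne_zero ha.1, ha.2.2, by rw [inv_inv]; exact ha.2.1⟩

theorem locUnit_div {a b : F} (ha : LocUnit n a) (hb : LocUnit n b) : LocUnit n (a / b) := by
  rw [div_eq_mul_inv]
  exact locUnit_mul ha (locUnit_inv hb)

theorem locUnit_pow {a : F} (ha : LocUnit n a) (k : ℕ) : LocUnit n (a ^ k) :=
  ⟨pow_ne_zero _ ha.1, ha.2.1.pow k, by rw [← inv_pow]; exact ha.2.2.pow k⟩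

theorem locUnit_zpow {a : F} (ha : LocUnit n a) (k : ℤ) : LocUnit n (a ^ k) := by
  cases k with
  | ofNat k => rw [Int.ofNat_eq_natCast, zpow_natCast]; exact locUnit_pow ha k
  | negSucc k => rw [zpow_negSucc]; exact locUnit_inv (locUnit_pow ha _)

theorem locUnit_not_inMax {a : F} (ha : LocUnit n a) : ¬ InMax n a := by
  intro h
  have := InMax.mul_left ha.2.2 h
  rw [inv_mul_cancel₀ ha.1] at this
  exact not_inMax_one this

theorem locUnit_add_inMax {a z : F} (ha : LocUnit n a) (hz : InMax n z) : LocUnit n (a + z) := by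
  refine LocUnit.of_not_inMax (ha.2.1.add hz.inLoc) fun h => ?_
  have := inMax_sub h hz
  rw [add_sub_cancel_right] at this
  exact locUnit_not_inMax ha this

/-- an element of the chart outside `n` is a local unit. -/
theorem locUnit_of_notMem {d : CInt R K t} (hd : d ∉ n) : LocUnit n (d : F) := by
  refine LocUnit.of_not_inMax (InLoc.of_mem n d.2) ?_
  rintro ⟨e, he, w, hw, h⟩
  have : e * d = w := Subtype.ext (by rw [Subring.coe_mul, h])
  exact loc_mul_notMem he hd (this ▸ hw)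

/-- every element of the local ring is a quotient `c / d`. -/
theorem inLoc_iff_exists_div {z : F} :
    InLoc n z ↔ ∃ c d : CInt R K t, d ∉ n ∧ z = (c : F) / (d : F) := by
  constructor
  · rintro ⟨d, hd, h⟩
    refine ⟨⟨_, h⟩, d, hd, ?_⟩
    have hd0 := (locUnit_of_notMem hd).1
    show z = (d : F) * z / (d : F)
    field_simp
  · rintro ⟨c, d, hd, rfl⟩
    rw [div_eq_mul_inv]
    exact (InLoc.of_mem n c.2).mul (locUnit_of_notMem hd).2.2

theorem genUnit_of_locUnit (ϖ : R) {a : F} (ha : LocUnit n a) : GenUnit ϖ n a :=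
  ⟨ha.1, 0, by simpa using ha.2.1, by simpa using ha.2.2⟩

theorem unit_inLoc_unif_pow (ϖ : R) (k : ℕ) : InLoc n (rE R K F ϖ ^ k) :=
  (InLoc.of_mem n (rE_mem_CInt t ϖ)).pow k

theorem genUnit_mul {a b : F} (ha : GenUnit ϖ n a) (hb : GenUnit ϖ n b) : GenUnit ϖ n (a * b) := by
  obtain ⟨ha0, k, h1, h2⟩ := ha
  obtain ⟨hb0, l, h3, h4⟩ := hb
  refine ⟨mul_ne_zero ha0 hb0, k + l, ?_, ?_⟩
  · have := h1.mul h3
    have e : rE R K F ϖ ^ (k + l) * (a * b) = rE R K F ϖ ^ k * a * (rE R K F ϖ ^ l * b) := by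
      rw [pow_add]; ring
    rwa [e]
  · have := h2.mul h4
    have e : rE R K F ϖ ^ (k + l) * (a * b)⁻¹ = rE R K F ϖ ^ k * a⁻¹ * (rE R K F ϖ ^ l * b⁻¹) := by
      rw [pow_add, mul_inv]; ring
    rwa [e]

theorem genUnit_inv {a : F} (ha : GenUnit ϖ n a) : GenUnit ϖ n a⁻¹ := by
  obtain ⟨ha0, k, h1, h2⟩ := ha
  exact ⟨inv_ne_zero ha0, k, h2, by rwa [inv_inv]⟩

theorem genUnit_div {a b : F} (ha : GenUnit ϖ n a) (hb : GenUnit ϖ n b) : GenUnit ϖ n (a / b) := by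
  rw [div_eq_mul_inv]
  exact genUnit_mul ha (genUnit_inv hb)

theorem genUnit_pow {a : F} (ha : GenUnit ϖ n a) (k : ℕ) : GenUnit ϖ n (a ^ k) := by
  induction k with
  | zero => rw [pow_zero]; exact genUnit_of_locUnit ϖ locUnit_one
  | succ k ih => rw [pow_succ]; exact genUnit_mul ih ha

theorem genUnit_zpow {a : F} (ha : GenUnit ϖ n a) (k : ℤ) : GenUnit ϖ n (a ^ k) := by
  cases k with
  | ofNat k => rw [Int.ofNat_eq_natCast, zpow_natCast]; exact genUnit_pow ha k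
  | negSucc k => rw [zpow_negSucc]; exact genUnit_inv (genUnit_pow ha _)

theorem unit_unif_ne_zero (hϖ : Irreducible ϖ) : rE R K F ϖ ≠ 0 := fun h =>
  hϖ.ne_zero (rE_injective (K := K) (E := F) (by rw [h, map_zero]))

theorem genUnit_unif (hϖ : Irreducible ϖ) : GenUnit ϖ n (rE R K F ϖ) := by
  have h0 := unit_unif_ne_zero (K := K) (F := F) hϖ
  refine ⟨h0, 1, ?_, ?_⟩
  · rw [pow_one]
    exact (InLoc.of_mem n (rE_mem_CInt t ϖ)).mul (InLoc.of_mem n (rE_mem_CInt t ϖ))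
  · rw [pow_one, mul_inv_cancel₀ h0]
    exact inLoc_one

/-- an element of the local ring lying in the maximal ideal of a branch through `n` lies in the maximal ideal of the local ring. -/
theorem inMax_of_nonunits {V : ValuationSubring F} (hV : ∀ y ∈ CInt R K t, y ∈ V)
    (hc : Centered V n) {z : F} (hz : InLoc n z) (hzV : z ∈ V.nonunits) : InMax n z := by
  obtain ⟨d, hd, h⟩ := hz
  exact ⟨d, hd, ⟨_, h⟩, hc ⟨_, h⟩ (mul_mem_nonunits V (hV _ d.2) hzV), rfl⟩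

/-- local units are units of the branches through `n`. -/
theorem locUnit_mem {V : ValuationSubring F} (hV : ∀ y ∈ CInt R K t, y ∈ V)
    (hc : Centered V n) {a : F} (ha : LocUnit n a) : a ∈ V ∧ a⁻¹ ∈ V :=
  ⟨hc.mem_of_inLoc hV ha.2.1, hc.mem_of_inLoc hV ha.2.2⟩

theorem unit_zpow_pos_aux {V : ValuationSubring F} (hV : ∀ y ∈ CInt R K t, y ∈ V)
    (hc : Centered V n) {π b : F} (hπ : InMax n π) (hb : LocUnit n b) {j : ℕ} (hj : j ≠ 0)
    (h : π ^ j * b - 1 ∈ V.nonunits) : False := by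
  have h1 : InMax n (π ^ j * b) := inMax_mul_right (inMax_pow hπ hj) hb.2.1
  have h2 : InMax n (π ^ j * b - 1) := inMax_of_nonunits hV hc (h1.inLoc.sub inLoc_one) h
  have h3 := inMax_sub h1 h2
  rw [sub_sub_cancel] at h3
  exact not_inMax_one h3

/-- uniqueness of the exponent. -/
theorem zpow_eq_zero_of_cong {V : ValuationSubring F} (hV : ∀ y ∈ CInt R K t, y ∈ V)
    (hc : Centered V n) {π b : F} (hπ : InMax n π) (hb : LocUnit n b) {j : ℤ}
    (h : π ^ j * b - 1 ∈ V.nonunits) : j = 0 := by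
  cases j with
  | ofNat k =>
    rw [Int.ofNat_eq_natCast, zpow_natCast] at h
    by_contra hk
    exact unit_zpow_pos_aux hV hc hπ hb (j := k) (fun h0 => hk (by simp [h0])) h
  | negSucc k =>
    exfalso
    have h1 := (glueLoc_unit h).2.2.2
    rw [zpow_negSucc, mul_inv, inv_inv] at h1
    exact unit_zpow_pos_aux hV hc hπ (locUnit_inv hb) (Nat.succ_ne_zero k) h1

end basic

/-- the charts are contained in both branches. -/
theorem chart_le_i (hϖ : Irreducible ϖ) (hB : Branches (K := K) ϖ x Vi V0) {t : F}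
    (ht : t = x ∨ t = x⁻¹) : ∀ y ∈ CInt R K t, y ∈ Vi :=
  fun _ hy => (hB.mem_of_mem_CInt hϖ ht hy).1

theorem chart_le_0 (hϖ : Irreducible ϖ) (hB : Branches (K := K) ϖ x Vi V0) {t : F}
    (ht : t = x ∨ t = x⁻¹) : ∀ y ∈ CInt R K t, y ∈ V0 :=
  fun _ hy => (hB.mem_of_mem_CInt hϖ ht hy).2

/-- `d ∈ 𝔪_V`: some power of `d` kills the denominator of `w` at `V`. -/
theorem unit_exists_pow_mul_mem {V : ValuationSubring F} {a : F} (ha0 : a ≠ 0)
    (ha : a ∈ V.nonunits)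
    (hunif : ∀ z : F, z ≠ 0 → ∃ k : ℤ, a ^ k * z ∈ V ∧ (a ^ k * z)⁻¹ ∈ V)
    {d : F} (hd : d ∈ V.nonunits) (w : F) : ∃ L : ℕ, d ^ L * w ∈ V := by
  by_cases hw : w = 0
  · exact ⟨0, by rw [hw, mul_zero]; exact zero_mem V⟩
  obtain ⟨k, h1, -⟩ := hunif w hw
  cases k with
  | ofNat l =>
    rw [Int.ofNat_eq_natCast, zpow_natCast] at h1
    refine ⟨l, ?_⟩
    have h2 : a⁻¹ * d ∈ V := loc_div_mem V ha hunif hd
    have e : d ^ l * w = (a⁻¹ * d) ^ l * (a ^ l * w) := by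
      rw [mul_pow, inv_pow]; field_simp
    rw [e]
    exact mul_mem (pow_mem h2 l) h1
  | negSucc l =>
    refine ⟨0, ?_⟩
    rw [zpow_negSucc] at h1
    have e : d ^ 0 * w = a ^ (l + 1) * ((a ^ (l + 1))⁻¹ * w) := by
      rw [pow_zero, one_mul, ← mul_assoc, mul_inv_cancel₀ (pow_ne_zero _ ha0), one_mul]
    rw [e]
    exact mul_mem (pow_mem (mem_of_mem_nonunits V ha) _) h1

/-- one-sided version: `V` centred, `V'` not centred. -/
theorem unit_inLoc_of_one (hϖ : Irreducible ϖ) (hB : Branches (K := K) ϖ x Vi V0) {t : F}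
    (ht : t = x ∨ t = x⁻¹) {n : Ideal (CInt R K t)} [n.IsPrime] {V V' : ValuationSubring F}
    (hVV' : (V = Vi ∧ V' = V0) ∨ (V = V0 ∧ V' = Vi)) (hc' : ¬ Centered V' n) {w : F} {k : ℕ}
    (h : InLoc n (rE R K F ϖ ^ k * w)) (hw : w ∈ V) : InLoc n w := by
  have h0 := unit_unif_ne_zero (K := K) (F := F) hϖ
  unfold Centered at hc'
  push Not at hc'
  obtain ⟨d, hdV', hdn⟩ := hc'
  have hdi := chart_le_i hϖ hB ht _ d.2
  have hd0 := chart_le_0 hϖ hB ht _ d.2
  have key : ∃ L : ℕ, (d : F) ^ L * w ∈ Vi ∧ (d : F) ^ L * w ∈ V0 := by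
    rcases hVV' with ⟨rfl, rfl⟩ | ⟨rfl, rfl⟩
    · obtain ⟨L, hL⟩ := unit_exists_pow_mul_mem h0 hB.mem_0 hB.unif_0 hdV' w
      exact ⟨L, mul_mem (pow_mem hdi L) hw, hL⟩
    · obtain ⟨L, hL⟩ := unit_exists_pow_mul_mem h0 hB.mem_i hB.unif_i hdV' w
      exact ⟨L, hL, mul_mem (pow_mem hd0 L) hw⟩
  obtain ⟨L, h1, h2⟩ := key
  have h3 : InLoc n (rE R K F ϖ ^ k * ((d : F) ^ L * w)) := by
    have := ((InLoc.of_mem n d.2).pow L).mul h
    have e : rE R K F ϖ ^ k * ((d : F) ^ L * w) = (d : F) ^ L * (rE R K F ϖ ^ k * w) := by ring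
    rwa [e]
  have h4 := hB.sat_loc hϖ ht k h3 h1 h2
  have h5 := (locUnit_pow (locUnit_of_notMem hdn) L).2.2.mul h4
  have hd00 := (locUnit_of_notMem hdn).1
  rwa [← mul_assoc, inv_mul_cancel₀ (pow_ne_zero _ hd00), one_mul] at h5

/-- a unit of `Oloc[1/ϖ]` which is a unit of all branches THROUGH `n` is a unit of `Oloc`. -/
theorem locUnit_of_genUnit_centered (hϖ : Irreducible ϖ) (hB : Branches (K := K) ϖ x Vi V0) {t : F}
    (ht : t = x ∨ t = x⁻¹) {n : Ideal (CInt R K t)} (hn : IsClosedPt ϖ n) {z : F}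
    (h : GenUnit ϖ n z) (hi : Centered Vi n → z ∈ Vi ∧ z⁻¹ ∈ Vi)
    (h0 : Centered V0 n → z ∈ V0 ∧ z⁻¹ ∈ V0) : LocUnit n z := by
  have := hn.max.isPrime
  by_cases hci : Centered Vi n
  · by_cases hc0 : Centered V0 n
    · exact hB.locUnit_of_genUnit hϖ ht h (hi hci).1 (hi hci).2 (h0 hc0).1 (h0 hc0).2
    · obtain ⟨hz0, k, h1, h2⟩ := h
      exact ⟨hz0, unit_inLoc_of_one hϖ hB ht (Or.inl ⟨rfl, rfl⟩) hc0 h1 (hi hci).1,
        unit_inLoc_of_one hϖ hB ht (Or.inl ⟨rfl, rfl⟩) hc0 h2 (hi hci).2⟩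
  · have hc0 : Centered V0 n := (hB.centered_or hϖ ht hn).resolve_left hci
    obtain ⟨hz0, k, h1, h2⟩ := h
    exact ⟨hz0, unit_inLoc_of_one hϖ hB ht (Or.inr ⟨rfl, rfl⟩) hci h1 (h0 hc0).1,
      unit_inLoc_of_one hϖ hB ht (Or.inr ⟨rfl, rfl⟩) hci h2 (h0 hc0).2⟩

end Fermat.Agent.S35
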